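/-
TW (S56): local bounds away from `p` — the core arguments.

* `Away.exists_smul_of_commute` : the centraliser in `sl2` of a non-scalar `2 × 2` matrix is a line;
* `card_H0On_complexConjugation` : `#H⁰(ℝ, ad⁰) = #k` (B4);
* `unrLoc` : the unramified local condition (classes which are coboundaries on inertia);
* `Away.locBound_unr_of`, `Away.locBound_twPrime_of` : the local bounds B2 and B1, with the three facts on
  tame inertia (`Fermat.Agent.Lib.Tame`) as explicit hypotheses.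
-/
import Mathlib
import Fermat.Agent.TW.Defs
import Fermat.Agent.TW.Selmer
import Fermat.Agent.TW.Hyp
import Fermat.Agent.TW.Basic
import Fermat.Agent.Lib.FrobeniusExists
import Fermat.Prelude.Def_GaloisRep_ComplexConjugation

set_option autoImplicit false

namespace Fermat.Agent.TW

open Fermat.Agent.S53 IsLocalRing Polynomial Module

noncomputable section

variable {k : Type} [Field k]

namespace Away

/-! ### Linear algebra of `2 × 2` matrices -/

/-- A trace-zero matrix commuting with a non-scalar `2 × 2` matrix `A` is a multiple of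
`A - (tr A / 2)`. -/
theorem exists_smul_of_commute (h2 : (2 : k) ≠ 0) (A : Mat2 k)
    (hA : A 0 1 ≠ 0 ∨ A 1 0 ≠ 0 ∨ A 0 0 ≠ A 1 1)
    (X : Mat2 k) (hX : X.trace = 0) (hXA : A * X = X * A) :
    ∃ t : k, X = t • (A - (A.trace / 2) • (1 : Mat2 k)) := by
  have e00 := congrFun (congrFun hXA 0) 0
  have e01 := congrFun (congrFun hXA 0) 1
  have e10 := congrFun (congrFun hXA 1) 0
  simp only [Matrix.mul_apply, Fin.sum_univ_two] at e00 e01 e10
  have ht : X 1 1 = - X 0 0 := by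
    rw [Matrix.trace_fin_two] at hX
    linear_combination hX
  rw [ht] at e01 e10
  rcases hA with hb | hc | had
  · refine ⟨X 0 1 / A 0 1, ?_⟩
    ext i j
    fin_cases i <;> fin_cases j
    · simp [Matrix.trace_fin_two]
      field_simp
      linear_combination (-1 : k) * e01
    · simp [Matrix.trace_fin_two]
      field_simp
    · simp [Matrix.trace_fin_two]
      field_simp
      linear_combination e00
    · simp [Matrix.trace_fin_two, ht]
      field_simp
      linear_combination e01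
  · refine ⟨X 1 0 / A 1 0, ?_⟩
    ext i j
    fin_cases i <;> fin_cases j
    · simp [Matrix.trace_fin_two]
      field_simp
      linear_combination e10
    · simp [Matrix.trace_fin_two]
      field_simp
      linear_combination (-1 : k) * e00
    · simp [Matrix.trace_fin_two]
      field_simp
    · simp [Matrix.trace_fin_two, ht]
      field_simp
      linear_combination (-1 : k) * e10
  · have had' : A 0 0 - A 1 1 ≠ 0 := sub_ne_zero.mpr had
    refine ⟨2 * X 0 0 / (A 0 0 - A 1 1), ?_⟩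
    ext i j
    fin_cases i <;> fin_cases j
    · simp [Matrix.trace_fin_two]
      field_simp
      ring
    · simp [Matrix.trace_fin_two]
      field_simp
      linear_combination e01
    · simp [Matrix.trace_fin_two]
      field_simp
      linear_combination (-1 : k) * e10
    · simp [Matrix.trace_fin_two, ht]
      field_simp
      ring

/-- Two trace-zero matrices commuting with a non-scalar matrix are proportional. -/
theorem exists_smul_of_commute_of_commute (h2 : (2 : k) ≠ 0) (A : Mat2 k)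
    (hA : A 0 1 ≠ 0 ∨ A 1 0 ≠ 0 ∨ A 0 0 ≠ A 1 1)
    (X Y : Mat2 k) (hX : X.trace = 0) (hY : Y.trace = 0)
    (hXA : A * X = X * A) (hYA : A * Y = Y * A) (hY0 : Y ≠ 0) : ∃ t : k, X = t • Y := by
  obtain ⟨s, hs⟩ := exists_smul_of_commute h2 A hA X hX hXA
  obtain ⟨t, ht⟩ := exists_smul_of_commute h2 A hA Y hY hYA
  have ht0 : t ≠ 0 := by
    rintro rfl
    rw [zero_smul] at ht
    exact hY0 ht
  refine ⟨s / t, ?_⟩
  rw [hs, ht, smul_smul, div_mul_cancel₀ s ht0]

/-- A matrix with two distinct eigenvalues is not scalar. -/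
theorem not_scalar_of_hasDistinctEigen (A : Mat2 k) (hA : HasDistinctEigen A) :
    A 0 1 ≠ 0 ∨ A 1 0 ≠ 0 ∨ A 0 0 ≠ A 1 1 := by
  obtain ⟨α, β, hαβ, hch⟩ := hA
  by_contra hcon
  simp only [not_or, not_not] at hcon
  obtain ⟨hb, hc, had⟩ := hcon
  rw [Matrix.charpoly_fin_two] at hch
  have h1 := congrArg (fun f => f.coeff 1) hch
  have h0 := congrArg (fun f => f.coeff 0) hch
  have e : (X - C α) * (X - C β) = X ^ 2 - C (α + β) * X + C (α * β) := by
    simp only [map_add, map_mul]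
    ring
  simp only [e, coeff_add, coeff_sub, coeff_X_pow, coeff_C_mul, coeff_X_one,
    coeff_X_zero, coeff_C] at h1 h0
  norm_num at h1 h0
  rw [Matrix.trace_fin_two] at h1
  rw [Matrix.det_fin_two, hb, hc] at h0
  apply hαβ
  have h3 : (α - β) ^ 2 = 0 := by
    linear_combination (α + β + A 0 0 + A 1 1) * h1 + (4 : k) * h0 + (A 0 0 - A 1 1) * had
  exact sub_eq_zero.mp (pow_eq_zero_iff (two_ne_zero) |>.mp h3)

/-- The condition `adAct rb 1 σ X = X` means that `X` commutes with `rb σ`. -/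
theorem adAct_one_eq_iff (rb : GQ →* Mat2 k) (σ : GQ) (X : Mat2 k) :
    adAct rb 1 σ X = X ↔ rb σ * X = X * rb σ := by
  rw [adAct_apply, one_hom_apply_coe, one_smul]
  constructor
  · intro h
    have h' := congrArg (fun Y => Y * rb σ) h
    simp only [mul_assoc, rb_inv_mul_rb, mul_one] at h'
    exact h'
  · intro h
    rw [h, mul_assoc, rb_mul_rb_inv, mul_one]

/-! ### Complex conjugation (B4) -/

/-- Complex conjugation inverts the `p`-th roots of unity. -/
theorem complexConjugation_apply_of_pow_eq_one (p : ℕ) (hp : 0 < p) (μ : AlgebraicClosure ℚ)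
    (hμ : μ ^ p = 1) : complexConjugation μ = μ ^ (p - 1) := by
  apply complexEmbedding.toRingHom.injective
  show complexEmbedding (complexConjugation μ) = complexEmbedding (μ ^ (p - 1))
  rw [complexEmbedding_complexConjugation, map_pow]
  have hz : complexEmbedding μ ^ p = 1 := by rw [← map_pow, hμ, map_one]
  have hn : ‖complexEmbedding μ‖ = 1 := Complex.norm_eq_one_of_pow_eq_one hz hp.ne'
  rw [← Complex.inv_eq_conj hn]
  apply inv_eq_of_mul_eq_one_right
  rw [← pow_succ', Nat.sub_add_cancel hp, hz]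

theorem det_rb_complexConjugation (rb : GQ →* Mat2 k) (p : ℕ) [hp : Fact p.Prime]
    (h : ResidualHyp rb p) : (rb complexConjugation).det = -1 := by
  have h1 := h.detCyc complexConjugation (p - 1)
    (fun μ hμ => complexConjugation_apply_of_pow_eq_one p hp.out.pos μ hμ)
  rw [h1, Nat.cast_sub hp.out.one_le, h.charP, Nat.cast_one, zero_sub]

theorem rb_complexConjugation_mul_self (rb : GQ →* Mat2 k) :
    rb complexConjugation * rb complexConjugation = 1 := by
  rw [← map_mul, complexConjugation_mul_self, map_one]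

theorem trace_rb_complexConjugation (rb : GQ →* Mat2 k) (p : ℕ) [hp : Fact p.Prime]
    (h : ResidualHyp rb p) : (rb complexConjugation).trace = 0 := by
  have hdet := det_rb_complexConjugation rb p h
  have hsq := rb_complexConjugation_mul_self rb
  have e00 := congrFun (congrFun hsq 0) 0
  have e11 := congrFun (congrFun hsq 1) 1
  simp only [Matrix.mul_apply, Fin.sum_univ_two, Matrix.one_apply_eq] at e00 e11
  rw [Matrix.det_fin_two] at hdet
  rw [Matrix.trace_fin_two]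
  have h3 : (rb complexConjugation 0 0 + rb complexConjugation 1 1) ^ 2 = 0 := by
    linear_combination e00 + e11 + 2 * hdet
  exact pow_eq_zero_iff (two_ne_zero) |>.mp h3

/-- In characteristic `p ≠ 2` the element `2` is invertible. -/
theorem two_ne_zero_of_charP (p : ℕ) [hp : Fact p.Prime] (hp2 : p ≠ 2) (hk : (p : k) = 0) :
    (2 : k) ≠ 0 := by
  intro h2
  have hcop : Nat.Coprime p 2 := (Nat.coprime_primes hp.out Nat.prime_two).mpr hp2
  have h1 : ((p : ℤ) : k) = 0 := by exact_mod_cast hk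
  have h2' : ((2 : ℤ) : k) = 0 := by exact_mod_cast h2
  have hb := Nat.Coprime.isCoprime hcop
  obtain ⟨a, b, hab⟩ := hb
  have := congrArg (fun n : ℤ => (n : k)) hab
  simp only [Int.cast_add, Int.cast_mul, Int.cast_natCast, Int.cast_one] at this
  rw [hk] at this
  simp only [Nat.cast_ofNat] at this
  rw [h2, mul_zero, mul_zero, add_zero] at this
  exact zero_ne_one this

theorem rb_complexConjugation_not_scalar (rb : GQ →* Mat2 k) (p : ℕ) [hp : Fact p.Prime]
    (hp2 : p ≠ 2) (h : ResidualHyp rb p) :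
    rb complexConjugation 0 1 ≠ 0 ∨ rb complexConjugation 1 0 ≠ 0 ∨
      rb complexConjugation 0 0 ≠ rb complexConjugation 1 1 := by
  have h2 := two_ne_zero_of_charP p hp2 h.charP
  have htr := trace_rb_complexConjugation rb p h
  have hsq := rb_complexConjugation_mul_self rb
  have e00 := congrFun (congrFun hsq 0) 0
  simp only [Matrix.mul_apply, Fin.sum_univ_two, Matrix.one_apply_eq] at e00
  rw [Matrix.trace_fin_two] at htr
  by_contra hcon
  simp only [not_or, not_not] at hcon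
  obtain ⟨hb, hc, had⟩ := hcon
  have ha : rb complexConjugation 0 0 = 0 := by
    have : (2 : k) * rb complexConjugation 0 0 = 0 := by linear_combination htr + had
    exact (mul_eq_zero.mp this).resolve_left h2
  rw [ha, hb] at e00
  simp at e00

end Away

/-- **B4.** The invariants of complex conjugation on `ad⁰` form a line. -/
theorem card_H0On_complexConjugation [Finite k] (rb : GQ →* Mat2 k) (p : ℕ) [Fact p.Prime]
    (hp2 : p ≠ 2) (h : ResidualHyp rb p) :
    Nat.card (H0On (Subgroup.zpowers complexConjugation) rb 1) = Nat.card k := by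
  have h2 := Away.two_ne_zero_of_charP p hp2 h.charP
  have htr := Away.trace_rb_complexConjugation rb p h
  have hns := Away.rb_complexConjugation_not_scalar rb p hp2 h
  have hA0 : rb complexConjugation ≠ 0 := by
    intro h0
    rw [h0] at hns
    simp at hns
  have key : H0On (Subgroup.zpowers complexConjugation) rb 1 =
      Submodule.span k {rb complexConjugation} := by
    apply le_antisymm
    · rintro X ⟨hX, hX'⟩
      have hc := (Away.adAct_one_eq_iff rb _ X).mp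
        (hX' complexConjugation (Subgroup.mem_zpowers _))
      obtain ⟨t, ht⟩ := Away.exists_smul_of_commute h2 _ hns X hX hc
      rw [htr, zero_div, zero_smul, sub_zero] at ht
      rw [ht]
      exact Submodule.smul_mem _ _ (Submodule.mem_span_singleton_self _)
    · rw [Submodule.span_singleton_le_iff_mem]
      refine ⟨htr, fun σ hσ => ?_⟩
      obtain ⟨n, rfl⟩ := Subgroup.mem_zpowers_iff.mp hσ
      rw [adAct_apply, one_hom_apply_coe, one_smul, ← map_mul, ← map_mul]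
      congr 1
      have hcomm : Commute (complexConjugation ^ n) complexConjugation :=
        (Commute.refl complexConjugation).zpow_left n
      rw [hcomm.eq, mul_assoc, mul_inv_cancel, mul_one]
  rw [key]
  exact (Nat.card_congr (LinearEquiv.toSpanNonzeroSingleton k (Mat2 k) _ hA0).toEquiv).symm

/-- The unramified local condition at `P`: cocycles of the decomposition group whose restriction
to inertia is the restriction of a coboundary. -/
def unrLoc (rb : GQ →* Mat2 k) (χ : GQ →* kˣ) (P : ValuationSubring (AlgebraicClosure ℚ)) :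
    Submodule k (↥(P.decompositionSubgroup ℚ) → Mat2 k) where
  carrier := {c | c ∈ Z1On (P.decompositionSubgroup ℚ) rb χ ∧ ∃ X : Mat2 k, X.trace = 0 ∧
    ∀ σ : ↥(P.decompositionSubgroup ℚ), (σ : GQ) ∈ P.inertiaSubgroupIn ℚ →
      c σ = adAct rb χ σ X - X}
  add_mem' := by
    rintro c c' ⟨h1, X, hX, hX'⟩ ⟨h1', Y, hY, hY'⟩
    refine ⟨add_mem h1 h1', X + Y, by rw [Matrix.trace_add, hX, hY, add_zero], fun σ hσ => ?_⟩
    rw [Pi.add_apply, hX' σ hσ, hY' σ hσ, map_add]
    abel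
  zero_mem' := ⟨zero_mem _, 0, Matrix.trace_zero _ _, fun σ _ => by
    rw [map_zero, sub_zero]; rfl⟩
  smul_mem' := by
    rintro a c ⟨h1, X, hX, hX'⟩
    refine ⟨Submodule.smul_mem _ a h1, a • X, by rw [Matrix.trace_smul, hX, smul_zero],
      fun σ hσ => ?_⟩
    rw [Pi.smul_apply, hX' σ hσ, map_smul, smul_sub]

theorem mem_unrLoc (rb : GQ →* Mat2 k) (χ : GQ →* kˣ) (P : ValuationSubring (AlgebraicClosure ℚ))
    (c : ↥(P.decompositionSubgroup ℚ) → Mat2 k) :
    c ∈ unrLoc rb χ P ↔ c ∈ Z1On (P.decompositionSubgroup ℚ) rb χ ∧ ∃ X : Mat2 k, X.trace = 0 ∧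
      ∀ σ : ↥(P.decompositionSubgroup ℚ), (σ : GQ) ∈ P.inertiaSubgroupIn ℚ →
        c σ = adAct rb χ σ X - X := Iff.rfl

namespace Away

/-! ### Cocycles on a decomposition group -/

theorem gq_inv_apply_apply (σ : GQ) (b : AlgebraicClosure ℚ) : σ⁻¹ (σ b) = b := by
  show (σ⁻¹ * σ) b = b
  rw [inv_mul_cancel]
  rfl

theorem inertiaSubgroupIn_le (P : ValuationSubring (AlgebraicClosure ℚ)) :
    P.inertiaSubgroupIn ℚ ≤ P.decompositionSubgroup ℚ := by
  rintro σ ⟨x, -, rfl⟩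
  exact x.2

theorem conj_mem_inertiaSubgroupIn (P : ValuationSubring (AlgebraicClosure ℚ)) {σ τ : GQ}
    (hσ : σ ∈ P.decompositionSubgroup ℚ) (hτ : τ ∈ P.inertiaSubgroupIn ℚ) :
    σ * τ * σ⁻¹ ∈ P.inertiaSubgroupIn ℚ := by
  obtain ⟨t, ht, rfl⟩ := hτ
  have hn : (P.inertiaSubgroup ℚ).Normal := by
    unfold ValuationSubring.inertiaSubgroup
    exact MonoidHom.normal_ker _
  have h := hn.conj_mem t ht ⟨σ, hσ⟩
  exact Subgroup.mem_map.mpr ⟨_, h, rfl⟩

theorem Z1On_map_one {D : Subgroup GQ} {rb : GQ →* Mat2 k} {χ : GQ →* kˣ} {c : D → Mat2 k}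
    (hc : c ∈ Z1On D rb χ) : c 1 = 0 := by
  have h := hc.2.1 1 1
  rw [mul_one, OneMemClass.coe_one, adAct_one] at h
  exact left_eq_add.1 h

theorem Z1On_pow_eq_zero {D : Subgroup GQ} {rb : GQ →* Mat2 k} {χ : GQ →* kˣ} {c : D → Mat2 k}
    (hc : c ∈ Z1On D rb χ) (g : D) (hg : c g = 0) (j : ℕ) : c (g ^ j) = 0 := by
  induction j with
  | zero => rw [pow_zero]; exact Z1On_map_one hc
  | succ j ih => rw [pow_succ, hc.2.1, ih, hg, map_zero, add_zero]

/-- Coboundaries on a subgroup are cocycles. -/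
theorem B1On_le_Z1On (D : Subgroup GQ) {rb : GQ →* Mat2 k} (hrb : FiniteLevel rb) :
    B1On D rb 1 ≤ Z1On D rb 1 := by
  rintro c ⟨X, hX, rfl⟩
  exact resOn_mem_Z1On D (B1_le_Z1_one hrb ⟨X, hX, rfl⟩)

/-- "`D_P / I_P` is generated by `φ` at every finite level" (the conclusion of
`Fermat.Agent.Lib.Tame.decomposition_eq_frobenius_pow_mul_inertia`). -/
def ProcyclicAt (P : ValuationSubring (AlgebraicClosure ℚ)) (φ : GQ) : Prop :=
  ∀ F : IntermediateField ℚ (AlgebraicClosure ℚ), FiniteDimensional ℚ F →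
    ∀ σ : GQ, σ ∈ P.decompositionSubgroup ℚ →
      ∃ (j : ℕ) (τ : GQ), τ ∈ P.inertiaSubgroupIn ℚ ∧ ∀ x ∈ F, σ x = (φ ^ j * τ) x

/-- A cocycle of the decomposition group which vanishes on inertia and at a Frobenius element
vanishes. -/
theorem Z1On_eq_zero_of_procyclic {rb : GQ →* Mat2 k} {χ : GQ →* kˣ}
    (P : ValuationSubring (AlgebraicClosure ℚ)) (φ : GQ) (hφ : φ ∈ P.decompositionSubgroup ℚ)
    (hproc : ProcyclicAt P φ) {c : ↥(P.decompositionSubgroup ℚ) → Mat2 k}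
    (hc : c ∈ Z1On (P.decompositionSubgroup ℚ) rb χ)
    (hI : ∀ σ : ↥(P.decompositionSubgroup ℚ), (σ : GQ) ∈ P.inertiaSubgroupIn ℚ → c σ = 0)
    (hφ0 : c ⟨φ, hφ⟩ = 0) : c = 0 := by
  obtain ⟨F, hF, h3⟩ := hc.2.2
  funext σ
  obtain ⟨j, τ, hτ, hx⟩ := hproc F hF σ σ.2
  let τ' : ↥(P.decompositionSubgroup ℚ) := ⟨τ, inertiaSubgroupIn_le P hτ⟩
  let g : ↥(P.decompositionSubgroup ℚ) := ⟨φ, hφ⟩ ^ j * τ'
  have hs : ∀ x ∈ F, ((g⁻¹ * σ : ↥(P.decompositionSubgroup ℚ)) : GQ) x = x := by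
    intro x hxF
    have hg : (g : GQ) = φ ^ j * τ := rfl
    show (g : GQ)⁻¹ ((σ : GQ) x) = x
    rw [hx x hxF, ← hg]
    exact gq_inv_apply_apply _ _
  have e : σ = g * (g⁻¹ * σ) := by group
  rw [e, h3 g _ hs]
  show c (⟨φ, hφ⟩ ^ j * τ') = 0
  rw [hc.2.1, Z1On_pow_eq_zero hc _ hφ0, hI τ' hτ, map_zero, add_zero]

/-- A cocycle of the decomposition group which vanishes on inertia takes values in the
inertia invariants. -/
theorem Z1On_inertia_invariant {rb : GQ →* Mat2 k} {χ : GQ →* kˣ}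
    (P : ValuationSubring (AlgebraicClosure ℚ)) {c : ↥(P.decompositionSubgroup ℚ) → Mat2 k}
    (hc : c ∈ Z1On (P.decompositionSubgroup ℚ) rb χ)
    (hI : ∀ σ : ↥(P.decompositionSubgroup ℚ), (σ : GQ) ∈ P.inertiaSubgroupIn ℚ → c σ = 0)
    (σ : ↥(P.decompositionSubgroup ℚ)) (τ : GQ) (hτ : τ ∈ P.inertiaSubgroupIn ℚ) :
    adAct rb χ τ (c σ) = c σ := by
  let τ' : ↥(P.decompositionSubgroup ℚ) := ⟨τ, inertiaSubgroupIn_le P hτ⟩
  have h1 : c (τ' * σ) = adAct rb χ τ (c σ) := by rw [hc.2.1, hI τ' hτ, zero_add]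
  have hmem : ((σ⁻¹ * τ' * σ : ↥(P.decompositionSubgroup ℚ)) : GQ) ∈ P.inertiaSubgroupIn ℚ := by
    have := conj_mem_inertiaSubgroupIn P (σ := (σ : GQ)⁻¹) (inv_mem σ.2) hτ
    rw [inv_inv] at this
    exact this
  have h2 : c (σ * (σ⁻¹ * τ' * σ)) = c σ := by
    rw [hc.2.1, hI _ hmem, map_zero, add_zero]
  have h3 : τ' * σ = σ * (σ⁻¹ * τ' * σ) := by group
  rw [← h1, h3, h2]

/-- Functions on the decomposition group vanishing on inertia. -/
def inertiaZero (P : ValuationSubring (AlgebraicClosure ℚ)) :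
    Submodule k (↥(P.decompositionSubgroup ℚ) → Mat2 k) where
  carrier := {c | ∀ σ : ↥(P.decompositionSubgroup ℚ), (σ : GQ) ∈ P.inertiaSubgroupIn ℚ → c σ = 0}
  add_mem' := by
    intro c c' h h' σ hσ
    rw [Pi.add_apply, h σ hσ, h' σ hσ, add_zero]
  zero_mem' := fun σ _ => rfl
  smul_mem' := by
    intro a c h σ hσ
    rw [Pi.smul_apply, h σ hσ, smul_zero]

/-- Cocycles of the decomposition group vanishing on inertia. -/
def unrZ1 (rb : GQ →* Mat2 k) (χ : GQ →* kˣ) (P : ValuationSubring (AlgebraicClosure ℚ)) :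
    Submodule k (↥(P.decompositionSubgroup ℚ) → Mat2 k) :=
  Z1On (P.decompositionSubgroup ℚ) rb χ ⊓ inertiaZero P

/-- Evaluation at Frobenius embeds the cocycles vanishing on inertia into the inertia
invariants. -/
def evFrob (rb : GQ →* Mat2 k) (χ : GQ →* kˣ) (P : ValuationSubring (AlgebraicClosure ℚ))
    (φ : GQ) (hφ : φ ∈ P.decompositionSubgroup ℚ) :
    ↥(unrZ1 rb χ P) →ₗ[k] ↥(H0On (P.inertiaSubgroupIn ℚ) rb χ) :=
  LinearMap.codRestrict (H0On (P.inertiaSubgroupIn ℚ) rb χ)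
    ((LinearMap.proj (⟨φ, hφ⟩ : ↥(P.decompositionSubgroup ℚ))).comp (unrZ1 rb χ P).subtype)
    (fun c => ⟨c.2.1.1 _, fun τ hτ => Z1On_inertia_invariant P c.2.1 c.2.2 _ τ hτ⟩)

theorem evFrob_injective (rb : GQ →* Mat2 k) (χ : GQ →* kˣ)
    (P : ValuationSubring (AlgebraicClosure ℚ)) (φ : GQ) (hφ : φ ∈ P.decompositionSubgroup ℚ)
    (hproc : ProcyclicAt P φ) : Function.Injective (evFrob rb χ P φ hφ) := by
  rw [← LinearMap.ker_eq_bot, LinearMap.ker_eq_bot']
  intro c hc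
  have h0 : (c : ↥(P.decompositionSubgroup ℚ) → Mat2 k) ⟨φ, hφ⟩ = 0 :=
    congrArg Subtype.val hc
  exact Subtype.ext (Z1On_eq_zero_of_procyclic P φ hφ hproc c.2.1 c.2.2 h0)

theorem finiteDimensional_unrZ1 (rb : GQ →* Mat2 k) (χ : GQ →* kˣ)
    (P : ValuationSubring (AlgebraicClosure ℚ)) (φ : GQ) (hφ : φ ∈ P.decompositionSubgroup ℚ)
    (hproc : ProcyclicAt P φ) : FiniteDimensional k ↥(unrZ1 rb χ P) :=
  Module.Finite.of_injective (evFrob rb χ P φ hφ) (evFrob_injective rb χ P φ hφ hproc)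

theorem finrank_unrZ1_le (rb : GQ →* Mat2 k) (χ : GQ →* kˣ)
    (P : ValuationSubring (AlgebraicClosure ℚ)) (φ : GQ) (hφ : φ ∈ P.decompositionSubgroup ℚ)
    (hproc : ProcyclicAt P φ) :
    finrank k ↥(unrZ1 rb χ P) ≤ finrank k ↥(H0On (P.inertiaSubgroupIn ℚ) rb χ) :=
  LinearMap.finrank_le_finrank_of_injective (evFrob_injective rb χ P φ hφ hproc)

/-- The coboundary map of a subgroup. -/
abbrev cobOn (D : Subgroup GQ) (rb : GQ →* Mat2 k) (χ : GQ →* kˣ) :
    Mat2 k →ₗ[k] (D → Mat2 k) := (resOn D).comp (cob rb χ)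

theorem cobOn_apply (D : Subgroup GQ) (rb : GQ →* Mat2 k) (χ : GQ →* kˣ) (X : Mat2 k) (σ : D) :
    cobOn D rb χ X σ = adAct rb χ σ X - X := rfl

theorem finiteDimensional_B1On (D : Subgroup GQ) (rb : GQ →* Mat2 k) (χ : GQ →* kˣ) :
    FiniteDimensional k ↥(B1On D rb χ) :=
  show FiniteDimensional k ↥((sl2 k).map (cobOn D rb χ)) from inferInstance

/-- Rank–nullity for the coboundary map on a space of trace-zero matrices. -/
theorem finrank_le_map_cobOn_add (D : Subgroup GQ) (rb : GQ →* Mat2 k) (χ : GQ →* kˣ)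
    (N : Submodule k (Mat2 k)) (hN : N ≤ sl2 k) :
    finrank k ↥N ≤ finrank k ↥(N.map (cobOn D rb χ)) + finrank k ↥(H0On D rb χ) := by
  have h1 := LinearMap.finrank_range_add_finrank_ker ((cobOn D rb χ).domRestrict N)
  rw [LinearMap.range_domRestrict] at h1
  have h2 : finrank k ↥(LinearMap.ker ((cobOn D rb χ).domRestrict N)) ≤
      finrank k ↥(H0On D rb χ) := by
    rw [← Submodule.finrank_map_subtype_eq N]
    apply Submodule.finrank_mono
    rintro x ⟨y, hy, rfl⟩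
    refine ⟨hN y.2, fun σ hσ => ?_⟩
    have := congrFun (LinearMap.mem_ker.mp hy) ⟨σ, hσ⟩
    exact sub_eq_zero.mp this
  omega

theorem finrank_sl2_le (D : Subgroup GQ) (rb : GQ →* Mat2 k) (χ : GQ →* kˣ) :
    finrank k ↥(sl2 k) ≤ finrank k ↥(B1On D rb χ) + finrank k ↥(H0On D rb χ) :=
  finrank_le_map_cobOn_add D rb χ (sl2 k) le_rfl

theorem H0On_le_sl2 (D : Subgroup GQ) (rb : GQ →* Mat2 k) (χ : GQ →* kˣ) :
    H0On D rb χ ≤ sl2 k := fun _ hX => hX.1

/-- From dimensions to cardinalities. -/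
theorem card_le_of_finrank_le [Finite k] (D : Subgroup GQ) (rb : GQ →* Mat2 k)
    (L : Submodule k (D → Mat2 k)) [FiniteDimensional k ↥L] (δ : ℕ)
    (h : finrank k ↥L ≤ finrank k ↥(H0On D rb 1) + δ + finrank k ↥(B1On D rb 1)) :
    Nat.card ↥L ≤ Nat.card ↥(H0On D rb 1) * Nat.card k ^ δ * Nat.card ↥(B1On D rb 1) := by
  have := finiteDimensional_B1On D rb 1
  rw [Module.natCard_eq_pow_finrank (K := k) (V := ↥L),
    Module.natCard_eq_pow_finrank (K := k) (V := ↥(H0On D rb 1)),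
    Module.natCard_eq_pow_finrank (K := k) (V := ↥(B1On D rb 1)), ← pow_add, ← pow_add]
  exact Nat.pow_le_pow_right Nat.card_pos h

/-- The dimension count for the unramified condition. -/
theorem unrLoc_bound {rb : GQ →* Mat2 k} (hrb : FiniteLevel rb)
    (P : ValuationSubring (AlgebraicClosure ℚ)) (φ : GQ) (hφ : φ ∈ P.decompositionSubgroup ℚ)
    (hproc : ProcyclicAt P φ) :
    FiniteDimensional k ↥(unrLoc rb 1 P) ∧
      finrank k ↥(unrLoc rb 1 P) ≤ finrank k ↥(H0On (P.decompositionSubgroup ℚ) rb 1) + 0 +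
        finrank k ↥(B1On (P.decompositionSubgroup ℚ) rb 1) := by
  have := finiteDimensional_B1On (P.decompositionSubgroup ℚ) rb 1
  have := finiteDimensional_unrZ1 rb 1 P φ hφ hproc
  have hle : unrLoc rb 1 P ≤ B1On (P.decompositionSubgroup ℚ) rb 1 ⊔ unrZ1 rb 1 P := by
    rintro c ⟨hc, X, hX, hX'⟩
    have hb : cobOn (P.decompositionSubgroup ℚ) rb 1 X ∈ B1On (P.decompositionSubgroup ℚ) rb 1 :=
      ⟨X, hX, rfl⟩
    have hz : c - cobOn (P.decompositionSubgroup ℚ) rb 1 X ∈ unrZ1 rb 1 P := by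
      refine ⟨sub_mem hc (B1On_le_Z1On _ hrb hb), fun σ hσ => ?_⟩
      rw [Pi.sub_apply, hX' σ hσ, cobOn_apply, sub_self]
    have e : c = cobOn (P.decompositionSubgroup ℚ) rb 1 X +
        (c - cobOn (P.decompositionSubgroup ℚ) rb 1 X) := by abel
    rw [e]
    exact Submodule.add_mem_sup hb hz
  have hfd : FiniteDimensional k ↥(unrLoc rb 1 P) := Submodule.finiteDimensional_of_le hle
  refine ⟨hfd, ?_⟩
  have h1 : finrank k ↥(unrLoc rb 1 P) ≤
      finrank k ↥(B1On (P.decompositionSubgroup ℚ) rb 1 ⊔ unrZ1 rb 1 P) :=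
    Submodule.finrank_mono hle
  have h2 : finrank k ↥(B1On (P.decompositionSubgroup ℚ) rb 1 ⊔ unrZ1 rb 1 P) +
      finrank k ↥(B1On (P.decompositionSubgroup ℚ) rb 1 ⊓ unrZ1 rb 1 P) =
      finrank k ↥(B1On (P.decompositionSubgroup ℚ) rb 1) + finrank k ↥(unrZ1 rb 1 P) :=
    Submodule.finrank_sup_add_finrank_inf_eq _ _
  have h3 : finrank k ↥((H0On (P.inertiaSubgroupIn ℚ) rb 1).map
      (cobOn (P.decompositionSubgroup ℚ) rb 1)) ≤
      finrank k ↥(B1On (P.decompositionSubgroup ℚ) rb 1 ⊓ unrZ1 rb 1 P) := by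
    apply Submodule.finrank_mono
    rintro c ⟨X, hX, rfl⟩
    have hb : cobOn (P.decompositionSubgroup ℚ) rb 1 X ∈ B1On (P.decompositionSubgroup ℚ) rb 1 :=
      ⟨X, hX.1, rfl⟩
    refine ⟨hb, B1On_le_Z1On _ hrb hb, fun σ hσ => ?_⟩
    rw [cobOn_apply, hX.2 σ hσ, sub_self]
  have h4 : finrank k ↥(H0On (P.inertiaSubgroupIn ℚ) rb 1) ≤
      finrank k ↥((H0On (P.inertiaSubgroupIn ℚ) rb 1).map
        (cobOn (P.decompositionSubgroup ℚ) rb 1)) +
      finrank k ↥(H0On (P.decompositionSubgroup ℚ) rb 1) :=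
    finrank_le_map_cobOn_add (P.decompositionSubgroup ℚ) rb 1
      (H0On (P.inertiaSubgroupIn ℚ) rb 1) (H0On_le_sl2 _ rb 1)
  have h5 : finrank k ↥(unrZ1 rb 1 P) ≤ finrank k ↥(H0On (P.inertiaSubgroupIn ℚ) rb 1) :=
    finrank_unrZ1_le rb 1 P φ hφ hproc
  omega

/-- **B2**, with the procyclicity of `D_P / I_P` as a hypothesis. -/
theorem locBound_unr_of [Finite k] {rb : GQ →* Mat2 k} (hrb : FiniteLevel rb)
    (P : ValuationSubring (AlgebraicClosure ℚ)) (φ : GQ) (hφ : φ ∈ P.decompositionSubgroup ℚ)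
    (hproc : ProcyclicAt P φ) : LocBound rb P 0 (unrLoc rb 1 P) := by
  obtain ⟨hfd, hrk⟩ := unrLoc_bound hrb P φ hφ hproc
  refine ⟨fun c hc => hc.1, fun c hc => ⟨B1On_le_Z1On _ hrb hc, ?_⟩, Module.finite_of_finite k,
    card_le_of_finrank_le _ rb _ 0 hrk⟩
  obtain ⟨X, hX, rfl⟩ := hc
  exact ⟨X, hX, fun σ _ => rfl⟩

/-! ### Taylor–Wiles primes (B1) -/

theorem finrank_span_singleton_le_one {V : Type*} [AddCommGroup V] [Module k V] (v : V) :
    finrank k ↥(Submodule.span k {v}) ≤ 1 := by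
  by_cases hv : v = 0
  · rw [hv, Submodule.span_zero_singleton, finrank_bot]
    exact Nat.zero_le _
  · exact (finrank_span_singleton hv).le

/-- Extension of a level-constant function on a subgroup to a level-constant function on `GQ`. -/
theorem exists_levelConst_extension {X : Type*} (D : Subgroup GQ) (c : D → X)
    (hc : LevelConstOn D c) (x₀ : X) : ∃ f : GQ → X, LevelConst f ∧ ∀ d : D, f d = c d := by
  classical
  obtain ⟨F, hF, h⟩ := hc
  have key : ∀ d d' : D, (∀ x ∈ F, (d : GQ) x = (d' : GQ) x) → c d = c d' := by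
    intro d d' hdd
    have e : d' = d * (d⁻¹ * d') := by group
    rw [e, h d _ ?_]
    intro x hx
    show (d : GQ)⁻¹ ((d' : GQ) x) = x
    rw [← hdd x hx]
    exact gq_inv_apply_apply _ _
  refine ⟨fun g => if hg : ∃ d : D, ∀ x ∈ F, g x = (d : GQ) x then c hg.choose else x₀,
    ⟨F, hF, fun g s hs => ?_⟩, fun d => ?_⟩
  · have hgs : ∀ x ∈ F, (g * s) x = g x := by
      intro x hx
      show g (s x) = g x
      rw [hs x hx]
    have hiff : (∃ d : D, ∀ x ∈ F, (g * s) x = (d : GQ) x) ↔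
        (∃ d : D, ∀ x ∈ F, g x = (d : GQ) x) := by
      constructor
      · rintro ⟨d, hd⟩
        exact ⟨d, fun x hx => by rw [← hd x hx, hgs x hx]⟩
      · rintro ⟨d, hd⟩
        exact ⟨d, fun x hx => by rw [← hd x hx, hgs x hx]⟩
    by_cases hg : ∃ d : D, ∀ x ∈ F, g x = (d : GQ) x
    · have hg' := hiff.mpr hg
      show (if hg : ∃ d : D, ∀ x ∈ F, (g * s) x = (d : GQ) x then c hg.choose else x₀) =
        (if hg : ∃ d : D, ∀ x ∈ F, g x = (d : GQ) x then c hg.choose else x₀)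
      rw [dif_pos hg, dif_pos hg']
      apply key
      intro x hx
      rw [← hg'.choose_spec x hx, ← hg.choose_spec x hx, hgs x hx]
    · have hg' : ¬ ∃ d : D, ∀ x ∈ F, (g * s) x = (d : GQ) x := fun h' => hg (hiff.mp h')
      show (if hg : ∃ d : D, ∀ x ∈ F, (g * s) x = (d : GQ) x then c hg.choose else x₀) =
        (if hg : ∃ d : D, ∀ x ∈ F, g x = (d : GQ) x then c hg.choose else x₀)
      rw [dif_neg hg, dif_neg hg']
  · have hd : ∃ d' : D, ∀ x ∈ F, (d : GQ) x = (d' : GQ) x := ⟨d, fun _ _ => rfl⟩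
    show (if hg : ∃ d' : D, ∀ x ∈ F, (d : GQ) x = (d' : GQ) x then c hg.choose else x₀) = c d
    rw [dif_pos hd]
    exact key _ _ (fun x hx => (hd.choose_spec x hx).symm)

theorem LevelConst.comp {X Y : Type*} {f : GQ → X} (hf : LevelConst f) (e : X → Y) :
    LevelConst (fun g => e (f g)) := by
  obtain ⟨F, hF, h⟩ := hf
  exact ⟨F, hF, fun g s hs => by simp only; rw [h g s hs]⟩

/-- The conclusion of `Fermat.Agent.Lib.Tame.tame_conj_invariant` at `P` and `φ`. -/
def TameConjAt (k : Type) [Field k] (P : ValuationSubring (AlgebraicClosure ℚ)) (φ : GQ) : Prop :=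
  ∀ f : GQ → k,
    (∀ σ ∈ P.inertiaSubgroupIn ℚ, ∀ τ ∈ P.inertiaSubgroupIn ℚ, f (σ * τ) = f σ + f τ) →
    LevelConst f → ∀ τ ∈ P.inertiaSubgroupIn ℚ, f (φ * τ * φ⁻¹) = f τ

/-- The conclusion of `Fermat.Agent.Lib.Tame.tame_proportional` at `P`. -/
def TamePropAt (k : Type) [Field k] (P : ValuationSubring (AlgebraicClosure ℚ)) : Prop :=
  ∀ f g : GQ → k,
    (∀ σ ∈ P.inertiaSubgroupIn ℚ, ∀ τ ∈ P.inertiaSubgroupIn ℚ, f (σ * τ) = f σ + f τ) →
    LevelConst f →
    (∀ σ ∈ P.inertiaSubgroupIn ℚ, ∀ τ ∈ P.inertiaSubgroupIn ℚ, g (σ * τ) = g σ + g τ) →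
    LevelConst g → (∃ σ ∈ P.inertiaSubgroupIn ℚ, g σ ≠ 0) →
    ∃ x : k, ∀ σ ∈ P.inertiaSubgroupIn ℚ, f σ = x * g σ

/-- On the inertia group of a prime where `rb` is unramified, a cocycle is additive. -/
theorem Z1On_add_of_unr {rb : GQ →* Mat2 k} (P : ValuationSubring (AlgebraicClosure ℚ))
    (hunr : ∀ σ ∈ P.inertiaSubgroupIn ℚ, rb σ = 1)
    {c : ↥(P.decompositionSubgroup ℚ) → Mat2 k}
    (hc : c ∈ Z1On (P.decompositionSubgroup ℚ) rb 1) (σ τ : ↥(P.decompositionSubgroup ℚ))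
    (hσ : (σ : GQ) ∈ P.inertiaSubgroupIn ℚ) : c (σ * τ) = c σ + c τ := by
  rw [hc.2.1, adAct_eq_of_rb_eq_one rb 1 σ (hunr σ hσ) rfl]

/-- The value of a cocycle at a conjugate of an inertia element. -/
theorem Z1On_conj_of_unr {rb : GQ →* Mat2 k} (P : ValuationSubring (AlgebraicClosure ℚ))
    (hunr : ∀ σ ∈ P.inertiaSubgroupIn ℚ, rb σ = 1)
    {c : ↥(P.decompositionSubgroup ℚ) → Mat2 k}
    (hc : c ∈ Z1On (P.decompositionSubgroup ℚ) rb 1) (g τ : ↥(P.decompositionSubgroup ℚ))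
    (hτ : (τ : GQ) ∈ P.inertiaSubgroupIn ℚ) :
    c (g * τ * g⁻¹) = adAct rb 1 g (c τ) := by
  have e1 : c (g * τ * g⁻¹) = c g + adAct rb 1 g (c τ) + adAct rb 1 g (c g⁻¹) := by
    rw [hc.2.1 (g * τ) g⁻¹, hc.2.1 g τ, Subgroup.coe_mul, adAct_mul,
      adAct_eq_of_rb_eq_one rb 1 τ (hunr _ hτ) rfl]
  have e2 : c g + adAct rb 1 g (c g⁻¹) = 0 := by
    rw [← hc.2.1, mul_inv_cancel, Z1On_map_one hc]
  rw [e1, add_right_comm, e2, zero_add]

/-- The extension to `GQ` of a cocycle is additive on inertia. -/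
theorem ext_add_of_unr {rb : GQ →* Mat2 k} (P : ValuationSubring (AlgebraicClosure ℚ))
    (hunr : ∀ σ ∈ P.inertiaSubgroupIn ℚ, rb σ = 1)
    {c : ↥(P.decompositionSubgroup ℚ) → Mat2 k}
    (hc : c ∈ Z1On (P.decompositionSubgroup ℚ) rb 1) (f : GQ → Mat2 k)
    (hf : ∀ d : ↥(P.decompositionSubgroup ℚ), f d = c d) (i j : Fin 2) :
    ∀ σ ∈ P.inertiaSubgroupIn ℚ, ∀ τ ∈ P.inertiaSubgroupIn ℚ,
      f (σ * τ) i j = f σ i j + f τ i j := by
  intro σ hσ τ hτ
  have h := Z1On_add_of_unr P hunr hc ⟨σ, inertiaSubgroupIn_le P hσ⟩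
    ⟨τ, inertiaSubgroupIn_le P hτ⟩ hσ
  rw [← hf, ← hf, ← hf] at h
  have h' : f (σ * τ) = f σ + f τ := h
  rw [h', Matrix.add_apply]

/-- At a prime `q ≡ 1 mod p` where `rb` is unramified, the values on inertia of a cocycle
commute with the image of Frobenius. -/
theorem Z1On_inertia_commute {rb : GQ →* Mat2 k} (P : ValuationSubring (AlgebraicClosure ℚ))
    (hunr : ∀ σ ∈ P.inertiaSubgroupIn ℚ, rb σ = 1) (φ : GQ)
    (hφ : φ ∈ P.decompositionSubgroup ℚ) (hconj : TameConjAt k P φ)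
    {c : ↥(P.decompositionSubgroup ℚ) → Mat2 k}
    (hc : c ∈ Z1On (P.decompositionSubgroup ℚ) rb 1) (τ : ↥(P.decompositionSubgroup ℚ))
    (hτ : (τ : GQ) ∈ P.inertiaSubgroupIn ℚ) : rb φ * c τ = c τ * rb φ := by
  rw [← adAct_one_eq_iff]
  obtain ⟨f, hfc, hf⟩ := exists_levelConst_extension _ c hc.2.2 0
  have h2 := Z1On_conj_of_unr P hunr hc ⟨φ, hφ⟩ τ hτ
  rw [← h2]
  ext i j
  have h1 := hconj (fun g => f g i j) (ext_add_of_unr P hunr hc f hf i j)
    (LevelConst.comp hfc (fun M : Mat2 k => M i j)) τ hτ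
  rw [← hf, ← hf τ]
  exact h1

/-- The dimension count at a Taylor–Wiles prime. -/
theorem Z1On_bound_of_tame {rb : GQ →* Mat2 k} (h2 : (2 : k) ≠ 0)
    (P : ValuationSubring (AlgebraicClosure ℚ)) (φ : GQ) (hφ : φ ∈ P.decompositionSubgroup ℚ)
    (hproc : ProcyclicAt P φ) (hdist : HasDistinctEigen (rb φ))
    (hunr : ∀ σ ∈ P.inertiaSubgroupIn ℚ, rb σ = 1) (hconj : TameConjAt k P φ)
    (hprop : TamePropAt k P) :
    FiniteDimensional k ↥(Z1On (P.decompositionSubgroup ℚ) rb 1) ∧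
      finrank k ↥(Z1On (P.decompositionSubgroup ℚ) rb 1) ≤
        finrank k ↥(H0On (P.decompositionSubgroup ℚ) rb 1) + 1 +
          finrank k ↥(B1On (P.decompositionSubgroup ℚ) rb 1) := by
  have hns := not_scalar_of_hasDistinctEigen (rb φ) hdist
  have := finiteDimensional_unrZ1 rb 1 P φ hφ hproc
  have key : ∃ c₀ : ↥(P.decompositionSubgroup ℚ) → Mat2 k,
      Z1On (P.decompositionSubgroup ℚ) rb 1 ≤ Submodule.span k {c₀} ⊔ unrZ1 rb 1 P := by
    by_cases hex : ∃ c₀ ∈ Z1On (P.decompositionSubgroup ℚ) rb 1,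
        ∃ τ₀ : ↥(P.decompositionSubgroup ℚ), (τ₀ : GQ) ∈ P.inertiaSubgroupIn ℚ ∧ c₀ τ₀ ≠ 0
    · obtain ⟨c₀, hc₀, τ₀, hτ₀, hne⟩ := hex
      refine ⟨c₀, fun c hc => ?_⟩
      obtain ⟨i, j, hij⟩ : ∃ i j, c₀ τ₀ i j ≠ 0 := by
        by_contra hcon
        simp only [not_exists, not_not] at hcon
        exact hne (Matrix.ext hcon)
      obtain ⟨f, hfc, hf⟩ := exists_levelConst_extension _ c hc.2.2 0
      obtain ⟨g, hgc, hg⟩ := exists_levelConst_extension _ c₀ hc₀.2.2 0
      obtain ⟨x, hx⟩ := hprop (fun s => f s i j) (fun s => g s i j)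
        (ext_add_of_unr P hunr hc f hf i j) (LevelConst.comp hfc (fun M : Mat2 k => M i j))
        (ext_add_of_unr P hunr hc₀ g hg i j) (LevelConst.comp hgc (fun M : Mat2 k => M i j))
        ⟨τ₀, hτ₀, by show g (τ₀ : GQ) i j ≠ 0; rw [hg τ₀]; exact hij⟩
      have hz : c - x • c₀ ∈ unrZ1 rb 1 P := by
        refine ⟨sub_mem hc (Submodule.smul_mem _ _ hc₀), fun σ hσ => ?_⟩
        obtain ⟨t, ht⟩ := exists_smul_of_commute_of_commute h2 (rb φ) hns (c σ) (c₀ τ₀)
          (hc.1 σ) (hc₀.1 τ₀) (Z1On_inertia_commute P hunr φ hφ hconj hc σ hσ)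
          (Z1On_inertia_commute P hunr φ hφ hconj hc₀ τ₀ hτ₀) hne
        obtain ⟨s, hs⟩ := exists_smul_of_commute_of_commute h2 (rb φ) hns (c₀ σ) (c₀ τ₀)
          (hc₀.1 σ) (hc₀.1 τ₀) (Z1On_inertia_commute P hunr φ hφ hconj hc₀ σ hσ)
          (Z1On_inertia_commute P hunr φ hφ hconj hc₀ τ₀ hτ₀) hne
        have hxσ : f (σ : GQ) i j = x * g (σ : GQ) i j := hx σ hσ
        rw [hf σ, hg σ, ht, hs, Matrix.smul_apply, Matrix.smul_apply, smul_eq_mul, smul_eq_mul,
          ← mul_assoc] at hxσ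
        have hts : t = x * s := mul_right_cancel₀ hij hxσ
        rw [Pi.sub_apply, Pi.smul_apply, ht, hs, hts, smul_smul, sub_self]
      have e : c = x • c₀ + (c - x • c₀) := by abel
      rw [e]
      exact Submodule.add_mem_sup
        (Submodule.smul_mem _ _ (Submodule.mem_span_singleton_self _)) hz
    · refine ⟨0, fun c hc => Submodule.mem_sup_right ⟨hc, fun σ hσ => ?_⟩⟩
      by_contra hne
      exact hex ⟨c, hc, σ, hσ, hne⟩
  obtain ⟨c₀, hle⟩ := key
  have hfd : FiniteDimensional k ↥(Z1On (P.decompositionSubgroup ℚ) rb 1) :=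
    Submodule.finiteDimensional_of_le hle
  refine ⟨hfd, ?_⟩
  have h1 : finrank k ↥(Z1On (P.decompositionSubgroup ℚ) rb 1) ≤
      finrank k ↥(Submodule.span k {c₀} ⊔ unrZ1 rb 1 P) := Submodule.finrank_mono hle
  have h2' : finrank k ↥(Submodule.span k {c₀} ⊔ unrZ1 rb 1 P) ≤
      finrank k ↥(Submodule.span k {c₀}) + finrank k ↥(unrZ1 rb 1 P) :=
    Submodule.finrank_add_le_finrank_add_finrank _ _
  have h3 : finrank k ↥(Submodule.span k {c₀}) ≤ 1 := finrank_span_singleton_le_one c₀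
  have h4 : finrank k ↥(unrZ1 rb 1 P) ≤ finrank k ↥(H0On (P.inertiaSubgroupIn ℚ) rb 1) :=
    finrank_unrZ1_le rb 1 P φ hφ hproc
  have h5 : finrank k ↥(H0On (P.inertiaSubgroupIn ℚ) rb 1) ≤ finrank k ↥(sl2 k) :=
    Submodule.finrank_mono (H0On_le_sl2 _ rb 1)
  have h6 : finrank k ↥(sl2 k) ≤ finrank k ↥(B1On (P.decompositionSubgroup ℚ) rb 1) +
      finrank k ↥(H0On (P.decompositionSubgroup ℚ) rb 1) := finrank_sl2_le _ rb 1
  omega

/-- **B1**, with the three facts on tame inertia as hypotheses. -/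
theorem locBound_twPrime_of [Finite k] {rb : GQ →* Mat2 k} (hrb : FiniteLevel rb)
    (h2 : (2 : k) ≠ 0) (P : ValuationSubring (AlgebraicClosure ℚ)) (φ : GQ)
    (hφ : φ ∈ P.decompositionSubgroup ℚ) (hproc : ProcyclicAt P φ)
    (hdist : HasDistinctEigen (rb φ)) (hunr : ∀ σ ∈ P.inertiaSubgroupIn ℚ, rb σ = 1)
    (hconj : TameConjAt k P φ) (hprop : TamePropAt k P) :
    LocBound rb P 1 (Z1On (P.decompositionSubgroup ℚ) rb 1) := by
  obtain ⟨hfd, hrk⟩ := Z1On_bound_of_tame h2 P φ hφ hproc hdist hunr hconj hprop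
  exact ⟨le_rfl, B1On_le_Z1On _ hrb, Module.finite_of_finite k,
    card_le_of_finrank_le _ rb _ 1 hrk⟩

end Away

end

end Fermat.Agent.TW
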