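/-
TW (S56): at every finite level the decomposition group of a place of `ℚ̄` over a prime `q` is
generated by a Frobenius element and the inertia group.

* `Away.exists_pow_smul_eq` : an element of a decomposition group acts on the roots of
  `X ^ (q ^ J) - X` in the residue field as a power of the Frobenius `x ↦ x ^ q`;
* `Away.procyclicAt_of_isFrobeniusAt` : `Away.ProcyclicAt P φ` for a Frobenius element `φ` of `P`.
-/
import Mathlib
import Fermat.Agent.TW.Local.AwayCore
import Fermat.Agent.Lib.InertiaLift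

set_option autoImplicit false

namespace Fermat.Agent.TW

open Fermat.Agent.S53 IsLocalRing Polynomial

namespace Away

open Fermat.Agent.Lib.FrobeniusExists Fermat.Agent.Lib.InertiaLift

attribute [local instance] isAlgClosure_rat isGalois_rat

section Residue

variable {K Ω : Type*} [Field K] [Field Ω] [Algebra K Ω]

/-- Powers of a Frobenius element act on the residue field by iterated `q`-th powers. -/
theorem frob_pow_smul (A : ValuationSubring Ω) (φ : A.decompositionSubgroup K) (q : ℕ)
    (hφ : ∀ x : ResidueField A, φ • x = x ^ q) (j : ℕ) (x : ResidueField A) :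
    (φ ^ j) • x = x ^ q ^ j := by
  induction j generalizing x with
  | zero => simp
  | succ j ih => rw [pow_succ, mul_smul, hφ, ih, ← pow_mul, pow_succ, mul_comm]

theorem charP_residueField_of_liesOverPrime (A : ValuationSubring Ω) {ℓ : ℕ} (hℓ : ℓ.Prime)
    (hA : A.LiesOverPrime ℓ) : CharP (ResidueField A) ℓ := by
  rw [CharP.charP_iff_prime_eq_zero hℓ]
  obtain ⟨ha, hmem⟩ := (A.mem_nonunits_iff_exists_mem_maximalIdeal).mp hA
  have h1 : residue A ⟨(ℓ : Ω), ha⟩ = 0 := (residue_eq_zero_iff _).mpr hmem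
  have h2 : (⟨(ℓ : Ω), ha⟩ : A) = (ℓ : A) := Subtype.ext (by simp)
  rw [h2, map_natCast] at h1
  exact h1

/-- An element of the decomposition group acts on the roots of `X ^ (q ^ J) - X` in the residue
field as a power of the Frobenius `x ↦ x ^ q`. -/
theorem exists_pow_smul_eq (A : ValuationSubring Ω) {q : ℕ} (hq : q.Prime)
    (hA : A.LiesOverPrime q) (σ : A.decompositionSubgroup K) (J : ℕ) (hJ : 0 < J) :
    ∃ i : ℕ, ∀ z : ResidueField A, z ^ q ^ J = z → σ • z = z ^ q ^ i := by
  classical
  have : Fact q.Prime := ⟨hq⟩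
  have := charP_residueField_of_liesOverPrime A hq hA
  let : Algebra (ZMod q) (ResidueField A) := ZMod.algebra _ q
  have hq1 : 1 < q ^ J := Nat.one_lt_pow hJ.ne' hq.one_lt
  have hfin : {z : ResidueField A | z ^ q ^ J = z}.Finite := by
    have := Polynomial.finite_setOfPred_isRoot
      (FiniteField.X_pow_card_sub_X_ne_zero (ResidueField A) hq1)
    refine this.subset ?_
    intro z hz
    show (X ^ (q ^ J) - X : (ResidueField A)[X]).IsRoot z
    rw [IsRoot, eval_sub, eval_pow, eval_X, sub_eq_zero]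
    exact hz
  have : Finite {z : ResidueField A | z ^ q ^ J = z} := hfin.to_subtype
  have hint : ∀ x ∈ {z : ResidueField A | z ^ q ^ J = z}, IsIntegral (ZMod q) x := by
    intro x hx
    refine ⟨X ^ (q ^ J) - X, monic_X_pow_sub (by rw [degree_X]; exact_mod_cast hq1), ?_⟩
    have hx' : x ^ q ^ J = x := hx
    rw [eval₂_sub, eval₂_pow, eval₂_X, hx', sub_self]
  have := IntermediateField.finiteDimensional_adjoin hint
  have : Finite ↥(IntermediateField.adjoin (ZMod q) {z : ResidueField A | z ^ q ^ J = z}) :=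
    Module.finite_of_finite (ZMod q)
  let g₀ : ResidueField A ≃ₐ[ZMod q] ResidueField A :=
    AlgEquiv.ofRingEquiv
      (f := MulSemiringAction.toRingEquiv (A.decompositionSubgroup K) (ResidueField A) σ)
      (fun x => RingHom.congr_fun (Subsingleton.elim
        ((MulSemiringAction.toRingEquiv (A.decompositionSubgroup K) (ResidueField A) σ :
          ResidueField A →+* ResidueField A).comp (algebraMap (ZMod q) (ResidueField A)))
        (algebraMap (ZMod q) (ResidueField A))) x)
  obtain ⟨i, hi⟩ := FiniteField.exists_forall_apply_eq_pow (ZMod q) q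
    ↥(IntermediateField.adjoin (ZMod q) {z : ResidueField A | z ^ q ^ J = z})
    (g₀.restrictNormal _)
  refine ⟨i, fun z hz => ?_⟩
  have hzE : z ∈ IntermediateField.adjoin (ZMod q) {z : ResidueField A | z ^ q ^ J = z} :=
    IntermediateField.subset_adjoin _ _ hz
  have h1 := AlgEquiv.restrictNormal_commutes g₀
    ↥(IntermediateField.adjoin (ZMod q) {z : ResidueField A | z ^ q ^ J = z}) ⟨z, hzE⟩
  rw [hi, Nat.card_zmod] at h1
  exact h1.symm

end Residue

/-- **`D_P / I_P` is generated by Frobenius at every finite level.** -/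
theorem procyclicAt_of_isFrobeniusAt {q : ℕ} (hq : q.Prime)
    (P : ValuationSubring (AlgebraicClosure ℚ)) (hP : P.LiesOverPrime q) (φ : GQ)
    (hφ : P.IsFrobeniusAt φ q) : ProcyclicAt P φ := by
  intro F hF σ hσ
  obtain ⟨hφD, hφq⟩ := hφ
  let F' : IntermediateField ℚ (AlgebraicClosure ℚ) :=
    IntermediateField.normalClosure ℚ F (AlgebraicClosure ℚ)
  have hFF' : F ≤ F' := IntermediateField.le_normalClosure F
  have hQn : Normal ℚ (AlgebraicClosure ℚ) := IsGalois.to_normal
  have hF'n : Normal ℚ F' := normalClosure.normal ℚ (↥F) (AlgebraicClosure ℚ)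
  have hF'fd : FiniteDimensional ℚ F' := inferInstance
  have hN : F'.fixingSubgroup.Normal := by
    refine ⟨fun n hn g => ?_⟩
    rw [IntermediateField.mem_fixingSubgroup_iff] at hn ⊢
    intro z hz
    have h1 : g⁻¹ z ∈ F' :=
      (IntermediateField.normal_iff_forall_map_le'.mp hF'n) g⁻¹ ⟨z, hz, rfl⟩
    show g (n (g⁻¹ z)) = z
    rw [hn _ h1]
    exact g.apply_symm_apply z
  have hNc : IsClosed (F'.fixingSubgroup : Set GQ) :=
    IntermediateField.fixingSubgroup_isClosed F'
  have hidx : F'.fixingSubgroup.index ≠ 0 := by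
    rw [← IntermediateField.finrank_eq_fixingSubgroup_index]
    exact Module.finrank_pos.ne'
  obtain ⟨J, hJ, -, hφJ⟩ := Subgroup.exists_pow_mem_of_index_ne_zero hidx φ
  let φ' : ↥(P.decompositionSubgroup ℚ) := ⟨φ, hφD⟩
  let σ' : ↥(P.decompositionSubgroup ℚ) := ⟨σ, hσ⟩
  obtain ⟨i, hi⟩ := exists_pow_smul_eq P hq hP σ' J hJ
  let ρ' : ↥(P.decompositionSubgroup ℚ) := (φ' ^ i)⁻¹ * σ'
  have hρ : ∀ b : AlgebraicClosure ℚ, IsIntegral ℤ b → (∀ n ∈ F'.fixingSubgroup, n b = b) →
      P.valuation ((ρ' : GQ) b - b) < 1 := by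
    intro b hb hfix
    have hbP : b ∈ P := (P.valuation_le_one_iff b).mp (val_le_one_of_isIntegral P.valuation hb)
    let b' : ↥P := ⟨b, hbP⟩
    have hz : (residue ↥P b') ^ q ^ J = residue ↥P b' := by
      rw [← frob_pow_smul P φ' q hφq J, ← ResidueField.residue_smul]
      congr 1
      apply Subtype.ext
      show (φ ^ J) b = b
      exact hfix _ hφJ
    have h1 : ρ' • residue ↥P b' = residue ↥P b' := by
      show ((φ' ^ i)⁻¹ * σ') • residue ↥P b' = residue ↥P b'
      rw [mul_smul, hi _ hz, ← frob_pow_smul P φ' q hφq i, inv_smul_smul]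
    have h2 : residue ↥P (ρ' • b' - b') = 0 := by
      rw [map_sub, ResidueField.residue_smul, h1, sub_self]
    rw [residue_eq_zero_iff, P.valuation_lt_one_iff] at h2
    exact h2
  have := hN
  obtain ⟨n, hn, hI⟩ := exists_mul_mem_inertiaSubgroupIn hq P hP F'.fixingSubgroup hNc
    (ρ' : GQ) hρ
  refine ⟨i, n * (ρ' : GQ), hI, fun x hx => ?_⟩
  have hσx : σ x ∈ F' :=
    (IntermediateField.normal_iff_forall_map_le'.mp hF'n) σ ⟨x, hFF' hx, rfl⟩
  have hn' : φ ^ i * n * (φ ^ i)⁻¹ ∈ F'.fixingSubgroup := hN.conj_mem n hn (φ ^ i)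
  have e : φ ^ i * (n * (ρ' : GQ)) = (φ ^ i * n * (φ ^ i)⁻¹) * σ := by
    show φ ^ i * (n * ((φ ^ i)⁻¹ * σ)) = _
    group
  rw [e]
  show σ x = (φ ^ i * n * (φ ^ i)⁻¹) (σ x)
  exact ((IntermediateField.mem_fixingSubgroup_iff _ _).mp hn' _ hσx).symm

end Away

end Fermat.Agent.TW
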