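import Mathlib
import Fermat.Prelude.Def_GaloisRep_CompletionBridge
import Fermat.Agent.PT.G.KumUnram

/-!
# Inertia at `p` acts non-trivially on the `p`-th roots of unity (TW-SO-D)

For an odd prime `p`, a valuation subring `P` of `AlgebraicClosure ℚ` over `p` and a primitive
`p`-th root of unity `ζ`, some element of the inertia group of `P` moves `ζ`.
-/

set_option autoImplicit false

open scoped Pointwise

local notation "Qb" => AlgebraicClosure ℚ

namespace Fermat.Agent.TW.KummerP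

/-- For `x` integral at `v`, `1 - x ^ k` is divisible by `1 - x`. -/
theorem val_one_sub_pow_le {Γ₀ : Type*} [LinearOrderedCommGroupWithZero Γ₀] {K : Type*} [Field K]
    (v : Valuation K Γ₀) {x : K} (hx : v x ≤ 1) (k : ℕ) : v (1 - x ^ k) ≤ v (1 - x) := by
  have h1 : 1 - x ^ k = (∑ i ∈ Finset.range k, x ^ i) * (1 - x) := by
    rw [geom_sum_mul_neg]
  have h2 : v (∑ i ∈ Finset.range k, x ^ i) ≤ 1 := by
    refine Valuation.map_sum_le _ fun i _ => ?_
    rw [map_pow]
    exact pow_le_one' hx i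
  rw [h1, map_mul]
  calc v (∑ i ∈ Finset.range k, x ^ i) * v (1 - x) ≤ 1 * v (1 - x) := mul_le_mul' h2 le_rfl
    _ = v (1 - x) := one_mul _

/-- For a primitive `p`-th root of unity `ζ` and `p ∤ j`, `1 - ζ ^ j` and `1 - ζ` have the same
valuation. -/
theorem val_one_sub_pow_eq {Γ₀ : Type*} [LinearOrderedCommGroupWithZero Γ₀] {K : Type*} [Field K]
    (v : Valuation K Γ₀) {p : ℕ} (hp : p.Prime) {ζ : K} (hζ : IsPrimitiveRoot ζ p) {j : ℕ}
    (hj : ¬ p ∣ j) : v (1 - ζ ^ j) = v (1 - ζ) := by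
  have hvζ : v ζ = 1 := by
    have h1 : v ζ ^ p = 1 := by rw [← map_pow, hζ.pow_eq_one, map_one]
    exact (pow_eq_one_iff.mp h1).resolve_right hp.ne_zero
  apply le_antisymm (val_one_sub_pow_le v hvζ.le j)
  -- `ζ = (ζ ^ j) ^ j'` with `j * j' ≡ 1 mod p`
  have hcop : Nat.Coprime j p := ((Nat.Prime.coprime_iff_not_dvd hp).mpr hj).symm
  obtain ⟨j', -, hj'⟩ := Nat.exists_mul_mod_eq_one_of_coprime hcop hp.one_lt
  have hpow : (ζ ^ j) ^ j' = ζ := by
    rw [← pow_mul, ← Nat.mod_add_div (j * j') p, hj', pow_add, pow_one, pow_mul, hζ.pow_eq_one,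
      one_pow, mul_one]
  have hvζj : v (ζ ^ j) ≤ 1 := by rw [map_pow, hvζ, one_pow]
  have h2 := val_one_sub_pow_le v hvζj j'
  rwa [hpow] at h2

/-- **TW-SO-D.** Inertia at `p` acts non-trivially on the `p`-th roots of unity, `p` odd. -/
theorem exists_mem_inertia_apply_ne (p : ℕ) [Fact p.Prime] (hp2 : p ≠ 2)
    (P : ValuationSubring Qb) (hP : P.LiesOverPrime p) {ζ : Qb} (hζ : IsPrimitiveRoot ζ p) :
    ∃ σ ∈ P.inertiaSubgroupIn ℚ, σ ζ ≠ ζ := by
  have hp : p.Prime := Fact.out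
  by_contra hcon
  replace hcon : ∀ σ ∈ P.inertiaSubgroupIn ℚ, σ ζ = ζ := by
    intro σ hσ
    by_contra h
    exact hcon ⟨σ, hσ, h⟩
  -- the cyclotomic field
  set F : IntermediateField ℚ Qb := IntermediateField.adjoin ℚ {ζ} with hF
  have : NeZero p := ⟨hp.ne_zero⟩
  have hac : IsAlgClosure ℚ Qb := Fermat.Agent.Lib.FrobeniusExists.isAlgClosure_rat
  have : Algebra.IsAlgebraic ℚ Qb := hac.isAlgebraic
  have : Algebra.IsIntegral ℚ Qb := Algebra.IsAlgebraic.isIntegral
  have hcyc : IsCyclotomicExtension {p} ℚ F :=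
    hζ.intermediateField_adjoin_isCyclotomicExtension ℚ
  have : FiniteDimensional ℚ F := IsCyclotomicExtension.finiteDimensional {p} ℚ F
  have : IsGalois ℚ F := IsCyclotomicExtension.isGalois {p} ℚ F
  have : Normal ℚ F := IsGalois.to_normal
  have hI : P.inertiaSubgroupIn ℚ ≤ F.fixingSubgroup := by
    intro σ hσ
    have hle : F ≤ IntermediateField.fixedField (P.inertiaSubgroupIn ℚ) := by
      rw [hF, IntermediateField.adjoin_le_iff]
      rintro x rfl
      rw [SetLike.mem_coe, IntermediateField.mem_fixedField_iff]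
      exact fun τ hτ => hcon τ hτ
    rw [IntermediateField.mem_fixingSubgroup_iff]
    intro x hx
    exact (IntermediateField.mem_fixedField_iff _ x).mp (hle hx) σ hσ
  have hζF : ζ ∈ F := IntermediateField.mem_adjoin_simple_self ℚ ζ
  have hζ1 : ζ ≠ 1 := hζ.ne_one hp.one_lt
  have hx : (1 - ζ) ∈ F := F.sub_mem F.one_mem hζF
  have hx0 : (1 - ζ : Qb) ≠ 0 := sub_ne_zero.mpr (Ne.symm hζ1)
  obtain ⟨n, hn⟩ := Fermat.Agent.PT.Kummer.exists_zpow_valuation_eq F hp P hP hI hx hx0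
  -- the product formula `∏ (1 - ζ ^ j) = p`
  obtain ⟨m, rfl⟩ : ∃ m, p = m + 1 := ⟨p - 1, by have := hp.pos; omega⟩
  have hprod := hζ.prod_one_sub_pow_eq_order
  have hval : P.valuation (((m + 1 : ℕ) : Qb)) = P.valuation (1 - ζ) ^ m := by
    have h1 : (((m + 1 : ℕ) : Qb)) = ∏ k ∈ Finset.range m, (1 - ζ ^ (k + 1)) := by
      rw [hprod]
      push_cast
      rfl
    rw [h1, map_prod]
    rw [Finset.prod_eq_pow_card (b := P.valuation (1 - ζ))]
    · rw [Finset.card_range]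
    · intro k hk
      apply val_one_sub_pow_eq _ hp hζ
      intro hdvd
      have hk' := Finset.mem_range.mp hk
      have := Nat.le_of_dvd (Nat.succ_pos k) hdvd
      omega
  set γ := P.valuation (((m + 1 : ℕ) : Qb)) with hγ
  have hγ1 : γ < 1 := P.mem_nonunits_iff.mp hP
  have hγ0 : γ ≠ 0 := by
    rw [hγ, Valuation.ne_zero_iff]
    exact_mod_cast hp.ne_zero
  rw [map_zpow₀] at hn
  rw [hn, ← zpow_natCast, ← zpow_mul] at hval
  have hinj := zpow_right_injective₀ (zero_lt_iff.mpr hγ0) hγ1.ne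
  have h1 : γ ^ (1 : ℤ) = γ ^ (n * (m : ℤ)) := by rw [zpow_one]; exact hval
  have h2 : (1 : ℤ) = n * (m : ℤ) := hinj h1
  have hm : (m : ℤ) ∣ 1 := ⟨n, by rw [h2]; ring⟩
  have hm1 : m = 1 := by
    have := Int.natAbs_dvd_natAbs.mpr hm
    simpa using this
  omega

end Fermat.Agent.TW.KummerP
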