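import Mathlib
import Fermat.Prelude.Def_GaloisRep_CompletionBridge
import Fermat.Agent.PT.LocDec
import Fermat.Agent.Lib.ValConj

/-!
# TW-SO-C: the fixed field of the decomposition group at `padicPlace p`

`fixed_iff_padicEmbedding_mem`: an element `x : ℚ̄` is fixed by the decomposition group of
`padicPlace p` iff `padicEmbedding p x ∈ ℚ_p`.  For an arbitrary valuation subring `P` conjugate
to `padicPlace p` (every `P` over `p` is, TW-SO-B) the same holds with `padicEmbedding p ∘ τ⁻¹`.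
-/

open scoped Pointwise

namespace Fermat.Agent.TW.KummerP

local notation "Qb" => AlgebraicClosure ℚ

/-- `PadicAlgCl p` is Galois over `ℚ_p`. -/
theorem isGalois_padicAlgCl (p : ℕ) [Fact p.Prime] : IsGalois ℚ_[p] (PadicAlgCl p) := by
  have : Algebra.IsAlgebraic ℚ_[p] (PadicAlgCl p) := AlgebraicClosure.isAlgebraic ℚ_[p]
  have : IsAlgClosure ℚ_[p] (PadicAlgCl p) := ⟨inferInstance, inferInstance⟩
  have : Normal ℚ_[p] (PadicAlgCl p) := IsAlgClosure.normal ℚ_[p] (PadicAlgCl p)
  have : Algebra.IsSeparable ℚ_[p] (PadicAlgCl p) := inferInstance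
  exact ⟨⟩

/-- **TW-SO-C.** The fixed field of the decomposition group of `padicPlace p` is the preimage of
`ℚ_p` under `padicEmbedding p`. -/
theorem fixed_iff_padicEmbedding_mem (p : ℕ) [Fact p.Prime] (x : Qb) :
    (∀ σ ∈ (padicPlace p).decompositionSubgroup ℚ, σ x = x) ↔
      padicEmbedding p x ∈ (algebraMap ℚ_[p] (PadicAlgCl p)).range := by
  constructor
  · intro h
    have hfix : ∀ τ : PadicAlgCl p ≃ₐ[ℚ_[p]] PadicAlgCl p,
        τ (padicEmbedding p x) = padicEmbedding p x := by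
      intro τ
      rw [← padicEmbedding_localGaloisToGlobal,
        h _ (localGaloisToGlobal_mem_decompositionSubgroup p τ)]
    have := isGalois_padicAlgCl p
    have h2 := (InfiniteGalois.mem_range_algebraMap_iff_fixed (k := ℚ_[p]) (K := PadicAlgCl p)
      (padicEmbedding p x)).2 hfix
    exact h2
  · intro h σ hσ
    exact Fermat.Agent.PT.LocDec.apply_eq_of_mem_decompositionSubgroup p hσ h

/-- `padicPlace p` lies over `p`. -/
theorem padicPlace_liesOverPrime (p : ℕ) [Fact p.Prime] : (padicPlace p).LiesOverPrime p := by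
  unfold ValuationSubring.LiesOverPrime
  rw [ValuationSubring.mem_nonunits_iff_or]
  right
  rw [Fermat.Agent.PT.LocDec.mem_padicPlace_iff_nq]
  have h1 : Fermat.Agent.PT.LocDec.nq p ((p : Qb)⁻¹) = (p : ℝ) := by
    have := Fermat.Agent.PT.LocDec.nq_zpow p (p : Qb) (-1)
    rw [zpow_neg_one, zpow_neg_one, Fermat.Agent.PT.LocDec.nq_natCast_self, inv_inv] at this
    exact this
  rw [h1, not_le]
  exact_mod_cast (Fact.out : p.Prime).one_lt

/-- The decomposition group of a conjugate `τ • P`: `σ ∈ D_{τ • P} ↔ τ⁻¹ σ τ ∈ D_P`. -/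
theorem mem_decompositionSubgroup_smul_iff (P : ValuationSubring Qb) (τ σ : Qb ≃ₐ[ℚ] Qb) :
    σ ∈ (τ • P).decompositionSubgroup ℚ ↔ τ⁻¹ * σ * τ ∈ P.decompositionSubgroup ℚ := by
  unfold ValuationSubring.decompositionSubgroup
  rw [MulAction.mem_stabilizer_iff, MulAction.mem_stabilizer_iff, mul_smul, mul_smul,
    inv_smul_eq_iff]

/-- Fixed field of the decomposition group of a conjugate `τ • padicPlace p`. -/
theorem fixed_iff_padicEmbedding_mem_of_smul (p : ℕ) [Fact p.Prime] (P : ValuationSubring Qb)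
    (τ : Qb ≃ₐ[ℚ] Qb) (hτ : P = τ • padicPlace p) (x : Qb) :
    (∀ σ ∈ P.decompositionSubgroup ℚ, σ x = x) ↔
      padicEmbedding p (τ⁻¹ x) ∈ (algebraMap ℚ_[p] (PadicAlgCl p)).range := by
  rw [← fixed_iff_padicEmbedding_mem]
  subst hτ
  constructor
  · intro h σ hσ
    have h1 : τ * σ * τ⁻¹ ∈ (τ • padicPlace p).decompositionSubgroup ℚ := by
      rw [mem_decompositionSubgroup_smul_iff]
      simpa [mul_assoc] using hσ
    have h2 := h _ h1
    have h3 : τ (σ (τ⁻¹ x)) = x := h2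
    apply τ.injective
    rw [h3]
    exact (τ.apply_symm_apply x).symm
  · intro h σ hσ
    rw [mem_decompositionSubgroup_smul_iff] at hσ
    have h2 := h _ hσ
    have h3 : τ⁻¹ (σ (τ (τ⁻¹ x))) = τ⁻¹ x := h2
    have e : τ (τ⁻¹ x) = x := τ.apply_symm_apply x
    rw [e] at h3
    exact τ⁻¹.injective h3

/-- For every `P` conjugate to `padicPlace p` there is an embedding `φ : ℚ̄ → PadicAlgCl p` such
that the fixed field of `D_P` is the preimage of `ℚ_p` under `φ`. -/
theorem exists_ringHom_fixed_iff_of_smul (p : ℕ) [Fact p.Prime] (P : ValuationSubring Qb)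
    (τ : Qb ≃ₐ[ℚ] Qb) (hτ : P = τ • padicPlace p) :
    ∃ φ : Qb →+* PadicAlgCl p, ∀ x : Qb,
      (∀ σ ∈ P.decompositionSubgroup ℚ, σ x = x) ↔
        φ x ∈ (algebraMap ℚ_[p] (PadicAlgCl p)).range :=
  ⟨(padicEmbedding p).toRingHom.comp (τ⁻¹ : Qb ≃ₐ[ℚ] Qb).toAlgHom.toRingHom,
    fun x => fixed_iff_padicEmbedding_mem_of_smul p P τ hτ x⟩

/-- The same for every `P` over `p`, given transitivity of the Galois action on the valuation
subrings over `p` (TW-SO-B, `Fermat.Agent.Lib.ValConj.exists_smul_eq_of_liesOverPrime`). -/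
theorem exists_ringHom_fixed_iff_of_transitive (p : ℕ) [Fact p.Prime]
    (hB : ∀ P P' : ValuationSubring Qb, P.LiesOverPrime p → P'.LiesOverPrime p →
      ∃ τ : Qb ≃ₐ[ℚ] Qb, P' = τ • P)
    (P : ValuationSubring Qb) (hP : P.LiesOverPrime p) :
    ∃ φ : Qb →+* PadicAlgCl p, ∀ x : Qb,
      (∀ σ ∈ P.decompositionSubgroup ℚ, σ x = x) ↔
        φ x ∈ (algebraMap ℚ_[p] (PadicAlgCl p)).range := by
  obtain ⟨τ, hτ⟩ := hB (padicPlace p) P (padicPlace_liesOverPrime p) hP
  exact exists_ringHom_fixed_iff_of_smul p P τ hτ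

/-- Every valuation subring of `ℚ̄` over `p` is a Galois conjugate of `padicPlace p`. -/
theorem exists_eq_smul_padicPlace (p : ℕ) [Fact p.Prime] (P : ValuationSubring Qb)
    (hP : P.LiesOverPrime p) : ∃ τ : Qb ≃ₐ[ℚ] Qb, P = τ • padicPlace p :=
  Fermat.Agent.Lib.ValConj.exists_smul_eq_of_liesOverPrime (Fact.out : p.Prime) (padicPlace p) P
    (padicPlace_liesOverPrime p) hP

/-- **TW-SO-C, second part.** For EVERY valuation subring `P` of `ℚ̄` over `p` there is an
embedding `φ : ℚ̄ → PadicAlgCl p` such that the fixed field of the decomposition group `D_P` is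
the preimage of `ℚ_p` under `φ`. -/
theorem exists_ringHom_fixed_iff (p : ℕ) [Fact p.Prime] (P : ValuationSubring Qb)
    (hP : P.LiesOverPrime p) :
    ∃ φ : Qb →+* PadicAlgCl p, ∀ x : Qb,
      (∀ σ ∈ P.decompositionSubgroup ℚ, σ x = x) ↔
        φ x ∈ (algebraMap ℚ_[p] (PadicAlgCl p)).range := by
  obtain ⟨τ, hτ⟩ := exists_eq_smul_padicPlace p P hP
  exact exists_ringHom_fixed_iff_of_smul p P τ hτ

end Fermat.Agent.TW.KummerP
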