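/-
TW (S56), task TW-SO: Hilbert 90 for level-constant cocycles on an ARBITRARY subgroup `H` of
`Gal(K/k)` (`K/k` normal), e.g. a decomposition group.  Cochains are functions on `Gal(K/k)`
(junk outside `H`) which are constant on the cosets `g * (H ∩ F.fixingSubgroup)` for a finite
level `F`:  `c σ = σ b / b` on `H`.
-/
import Mathlib

set_option autoImplicit false

namespace Fermat.Agent.TW.KummerH90

open IntermediateField

section Core

variable {k K : Type*} [Field k] [Field K] [Algebra k K]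

/-- **Hilbert 90, finite Galois level.** `L/k` finite normal inside `K`, `H` any subgroup of
`Gal(K/k)`, `c` a cocycle on `H` which is constant on the cosets of `H ∩ Gal(K/L)`. -/
theorem hilbert90_core (L : IntermediateField k K) [FiniteDimensional k L] [Normal k L]
    (H : Subgroup (K ≃ₐ[k] K)) (c : (K ≃ₐ[k] K) → K)
    (hc : ∀ σ ∈ H, ∀ τ ∈ H, c (σ * τ) = c σ * σ (c τ))
    (hlev : ∀ g ∈ H, ∀ s ∈ H, s ∈ L.fixingSubgroup → c (g * s) = c g)
    (h1 : c 1 ≠ 0) :
    ∃ b : K, b ≠ 0 ∧ ∀ σ ∈ H, c σ * σ b = b := by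
  classical
  let res : (K ≃ₐ[k] K) →* (L ≃ₐ[k] L) := AlgEquiv.restrictNormalHom L
  have hres : ∀ (σ : K ≃ₐ[k] K) (y : L), σ (algebraMap L K y) = algebraMap L K (res σ y) :=
    fun σ y => (AlgEquiv.restrictNormal_commutes σ L y).symm
  let H' : Subgroup (L ≃ₐ[k] L) := H.map res
  have : Fintype H' := Fintype.ofFinite _
  have hlift : ∀ ρ : H', ∃ g, g ∈ H ∧ res g = ρ := fun ρ => Subgroup.mem_map.mp ρ.2
  choose lift hliftH hliftres using hlift
  -- `c` only depends on the restriction to `L`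
  have hres_eq : ∀ g ∈ H, ∀ g' ∈ H, res g = res g' → c g = c g' := by
    intro g hg g' hg' h
    have hs : g⁻¹ * g' ∈ L.fixingSubgroup := by
      rw [IntermediateField.mem_fixingSubgroup_iff]
      intro x hx
      have h2 : res (g⁻¹ * g') = 1 := by rw [map_mul, map_inv, h, inv_mul_cancel]
      have h3 := hres (g⁻¹ * g') ⟨x, hx⟩
      rw [h2] at h3
      exact h3
    have h4 := hlev g hg (g⁻¹ * g') (H.mul_mem (H.inv_mem hg) hg') hs
    rw [mul_inv_cancel_left] at h4
    exact h4.symm
  -- the Poincaré series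
  let P : L → K := fun x => ∑ ρ : H', c (lift ρ) * algebraMap L K ((ρ : L ≃ₐ[k] L) x)
  have hP : ∀ σ ∈ H, ∀ x, c σ * σ (P x) = P x := by
    intro σ hσ x
    let σ' : H' := ⟨res σ, Subgroup.mem_map_of_mem res hσ⟩
    have e1 : c σ * σ (P x) = ∑ ρ : H', c (lift (σ' * ρ)) *
        algebraMap L K (((σ' * ρ : H') : L ≃ₐ[k] L) x) := by
      simp only [P]
      rw [map_sum, Finset.mul_sum]
      refine Finset.sum_congr rfl fun ρ _ => ?_
      rw [map_mul, hres, ← mul_assoc, ← hc σ hσ (lift ρ) (hliftH ρ)]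
      congr 1
      apply hres_eq _ (H.mul_mem hσ (hliftH ρ)) _ (hliftH _)
      rw [map_mul, hliftres, hliftres]
      rfl
    rw [e1]
    exact Equiv.sum_comp (Equiv.mulLeft σ')
      (fun ρ : H' => c (lift ρ) * algebraMap L K ((ρ : L ≃ₐ[k] L) x))
  -- Dedekind: the Poincaré series is not identically zero
  have hex : ∃ x, P x ≠ 0 := by
    by_contra hall
    push Not at hall
    let v : H' → (L →ₐ[k] K) := fun ρ => (L.val).comp ((ρ : L ≃ₐ[k] L) : L →ₐ[k] L)
    have hv : Function.Injective v := by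
      intro ρ ρ' h
      apply Subtype.ext
      apply AlgEquiv.ext
      intro x
      have := congrArg (fun f : L →ₐ[k] K => f x) h
      exact Subtype.ext this
    have hli : LinearIndependent K (fun ρ : H' => (v ρ).toLinearMap) :=
      (linearIndependent_algHom_toLinearMap k L K).comp v hv
    have hsum : ∑ ρ : H', c (lift ρ) • (v ρ).toLinearMap = 0 := by
      apply LinearMap.ext
      intro x
      rw [LinearMap.sum_apply]
      simp only [LinearMap.smul_apply, LinearMap.zero_apply]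
      exact hall x
    have h0 := Fintype.linearIndependent_iff.mp hli (fun ρ => c (lift ρ)) hsum 1
    apply h1
    rw [← h0]
    apply hres_eq _ H.one_mem _ (hliftH _)
    rw [hliftres, map_one]
    rfl
  obtain ⟨x, hx⟩ := hex
  exact ⟨P x, hx, fun σ hσ => hP σ hσ x⟩

section NormalExt

variable [Normal k K]

/-- **Hilbert 90 for level-constant cocycles** on an arbitrary subgroup `H` of `Gal(K/k)`:
`c σ = σ b / b`. The level `F` is any finite subextension. -/
theorem hilbert90 (F : IntermediateField k K) [FiniteDimensional k F]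
    (H : Subgroup (K ≃ₐ[k] K)) (c : (K ≃ₐ[k] K) → K)
    (hc : ∀ σ ∈ H, ∀ τ ∈ H, c (σ * τ) = c σ * σ (c τ))
    (hlev : ∀ g ∈ H, ∀ s ∈ H, s ∈ F.fixingSubgroup → c (g * s) = c g)
    (h1 : c 1 ≠ 0) :
    ∃ b : K, b ≠ 0 ∧ ∀ σ ∈ H, c σ = σ b / b := by
  obtain ⟨b, hb, h⟩ := hilbert90_core (normalClosure k F K) H c hc
    (fun g hg s hs hsL => hlev g hg s hs
      (IntermediateField.fixingSubgroup_le (IntermediateField.le_normalClosure F) hsL)) h1
  refine ⟨b⁻¹, inv_ne_zero hb, fun σ hσ => ?_⟩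
  have hσb : σ b ≠ 0 := (map_ne_zero σ).mpr hb
  rw [map_inv₀, inv_div_inv, eq_div_iff hσb]
  exact h σ hσ


end NormalExt

end Core

end Fermat.Agent.TW.KummerH90
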