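/-
TW-SO-A (helper29, task 281; consumer: helper27's `TW/Local/StrictOrd.lean`).

`[ℚ_pˣ : (ℚ_pˣ)ᵖ] = p ^ 2` for an odd prime `p`.

Proof: helper33's index formula `card_fracUnits_quot_pow` for a henselian discrete valuation
ring with finite residue field, applied to `ℤ_[p] ⊆ ℚ_[p]`, together with
`#(ℤ_p / p ℤ_p) = p` and the triviality of `μ_p(ℚ_p)` for odd `p`.
-/
import Mathlib
import Fermat.Prelude.Def_GaloisRep_CompletionBridge
import Fermat.Agent.PT.Local.UnitPow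

set_option autoImplicit false

namespace Fermat.Agent.TW.KummerP

open Fermat.Agent.PT.Local IsLocalRing

/-- For an odd prime `p`: `(1 + p t) ^ p = 1 + p² t (1 + p t s)` in any commutative ring. -/
theorem exists_one_add_prime_mul_pow {R : Type*} [CommRing R] (p : ℕ) (hp : p.Prime)
    (hp2 : p ≠ 2) (t : R) :
    ∃ s : R, (1 + (p : R) * t) ^ p = 1 + (p : R) ^ 2 * t * (1 + (p : R) * t * s) := by
  have hp3 : 3 ≤ p := by
    have := hp.two_le
    omega
  obtain ⟨q, rfl⟩ : ∃ q, p = q + 3 := ⟨p - 3, by omega⟩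
  generalize hP : ((q + 3 : ℕ) : R) = P
  have hsum : ∑ m ∈ Finset.range (q + 2),
      (P * t) ^ (m + 1 + 1) * ((q + 3).choose (m + 1 + 1) : R) ∈
        Ideal.span {P ^ 3 * t ^ 2} := by
    refine Ideal.sum_mem _ fun m hm => ?_
    rw [Finset.mem_range] at hm
    rw [Ideal.mem_span_singleton']
    rcases Nat.lt_succ_iff_lt_or_eq.1 hm with hlt | rfl
    · obtain ⟨c, hc⟩ := hp.dvd_choose_self (k := m + 1 + 1) (by omega) (by omega)
      refine ⟨P ^ m * t ^ m * (c : R), ?_⟩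
      rw [hc, Nat.cast_mul, hP]
      ring
    · refine ⟨P ^ q * t ^ (q + 1), ?_⟩
      rw [show q + 1 + 1 + 1 = q + 3 from rfl, Nat.choose_self, Nat.cast_one]
      ring
  obtain ⟨s, hs⟩ := Ideal.mem_span_singleton'.1 hsum
  refine ⟨s, ?_⟩
  rw [add_comm (1 : R), add_pow, Finset.sum_range_succ', Finset.sum_range_succ']
  simp only [one_pow, mul_one, Nat.choose_zero_right, Nat.cast_one, pow_zero, zero_add, pow_one,
    Nat.choose_one_right]
  rw [← hs, hP]
  ring

/-- A `p`-th root of unity in a local domain in which `p` is a nonzero element of the maximal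
ideal (`p` an odd prime) is `1` as soon as it is congruent to `1` modulo `p`. -/
theorem eq_one_of_pow_prime_eq_one {R : Type*} [CommRing R] [IsLocalRing R] [IsDomain R]
    (p : ℕ) (hp : p.Prime) (hp2 : p ≠ 2) (hpm : (p : R) ∈ maximalIdeal R) (hp0 : (p : R) ≠ 0)
    {u : R} (hu : u - 1 ∈ Ideal.span {(p : R)}) (h : u ^ p = 1) : u = 1 := by
  obtain ⟨t, ht⟩ := Ideal.mem_span_singleton'.1 hu
  have hu' : u = 1 + (p : R) * t := by linear_combination -ht
  obtain ⟨s, hs⟩ := exists_one_add_prime_mul_pow p hp hp2 t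
  rw [hu', hs] at h
  have h2 : (p : R) ^ 2 * (t * (1 - -((p : R) * t * s))) = 0 := by linear_combination h
  have hunit : IsUnit (1 - -((p : R) * t * s)) :=
    isUnit_one_sub_self_of_mem_nonunits _
      (by
        rw [← mem_maximalIdeal]
        exact neg_mem (Ideal.mul_mem_right _ _ (Ideal.mul_mem_right _ _ hpm)))
  have ht0 : t = 0 := by
    rcases mul_eq_zero.1 h2 with h3 | h3
    · exact absurd h3 (pow_ne_zero 2 hp0)
    · rcases mul_eq_zero.1 h3 with h4 | h4
      · exact h4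
      · exact absurd h4 hunit.ne_zero
  rw [hu', ht0, mul_zero, add_zero]

/-- There is no non-trivial `p`-th root of unity in `ℚ_p` for `p` odd. -/
theorem padic_pow_prime_eq_one (p : ℕ) [Fact p.Prime] (hp2 : p ≠ 2) (ζ : ℚ_[p])
    (h : ζ ^ p = 1) : ζ = 1 := by
  have hp : p.Prime := Fact.out
  have hnorm : ‖ζ‖ = 1 := by
    have h1 : ‖ζ‖ ^ p = 1 := by rw [← norm_pow, h, norm_one]
    exact (pow_eq_one_iff_of_nonneg (norm_nonneg ζ) hp.ne_zero).1 h1
  let u : ℤ_[p] := ⟨ζ, hnorm.le⟩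
  have hu : u ^ p = 1 := by
    apply Subtype.ext
    rw [PadicInt.coe_pow, PadicInt.coe_one]
    exact h
  have hres : u - 1 ∈ Ideal.span {(p : ℤ_[p])} := by
    rw [← PadicInt.maximalIdeal_eq_span_p, ← PadicInt.ker_toZMod, RingHom.mem_ker, map_sub,
      map_one, sub_eq_zero]
    have h1 : (PadicInt.toZMod u) ^ p = 1 := by rw [← map_pow, hu, map_one]
    rwa [ZMod.pow_card] at h1
  have hpm : ((p : ℕ) : ℤ_[p]) ∈ maximalIdeal ℤ_[p] := by
    rw [PadicInt.maximalIdeal_eq_span_p]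
    exact Ideal.mem_span_singleton_self _
  have hp0 : ((p : ℕ) : ℤ_[p]) ≠ 0 := by
    exact_mod_cast hp.ne_zero
  have := eq_one_of_pow_prime_eq_one p hp hp2 hpm hp0 hres hu
  have h2 := congrArg (Subtype.val) this
  simpa [u] using h2

theorem rootsOfUnity_padic_eq_bot (p : ℕ) [Fact p.Prime] (hp2 : p ≠ 2) :
    rootsOfUnity p ℚ_[p] = ⊥ := by
  rw [Subgroup.eq_bot_iff_forall]
  intro ζ hζ
  rw [mem_rootsOfUnity] at hζ
  apply Units.ext
  rw [Units.val_one]
  apply padic_pow_prime_eq_one p hp2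
  rw [← Units.val_pow_eq_pow_val, hζ, Units.val_one]

theorem card_padicInt_quot_span_p (p : ℕ) [Fact p.Prime] :
    Nat.card (ℤ_[p] ⧸ Ideal.span {(p : ℤ_[p])}) = p := by
  rw [← PadicInt.maximalIdeal_eq_span_p, ← PadicInt.ker_toZMod]
  rw [Nat.card_congr (RingHom.quotientKerEquivOfSurjective
    (ZMod.ringHom_surjective (PadicInt.toZMod (p := p)))).toEquiv, Nat.card_zmod]

/-- **`[ℚ_pˣ : (ℚ_pˣ)ᵖ] = p²` for `p` odd.** -/
theorem card_padic_units_quot_pow (p : ℕ) [Fact p.Prime] (hp2 : p ≠ 2) :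
    Nat.card (ℚ_[p]ˣ ⧸ (powMonoidHom p : ℚ_[p]ˣ →* ℚ_[p]ˣ).range) = p ^ 2 := by
  have hp : p.Prime := Fact.out
  have : HenselianLocalRing ℤ_[p] := henselianLocalRing_of_isAdicComplete ℤ_[p]
  have : Finite (ResidueField ℤ_[p]) :=
    Finite.of_equiv (ZMod p) (PadicInt.residueField (p := p)).symm.toEquiv
  have hp0 : ((p : ℕ) : ℤ_[p]) ≠ 0 := by
    exact_mod_cast hp.ne_zero
  rw [card_fracUnits_quot_pow ℤ_[p] ℚ_[p] p hp0, rootsOfUnity_padic_eq_bot p hp2,
    card_padicInt_quot_span_p]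
  simp [pow_two]

end Fermat.Agent.TW.KummerP
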