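/-
TW (S56), task TW-SO: the Kummer count at `p`.

`D` the decomposition group of a place `P` of `ℚ̄` over an odd prime `p`, `ω` the mod `p`
cyclotomic character.  The level-constant `ω`-twisted cocycles `D → ZMod p`
(`g (σ τ) = g σ + ω σ · g τ`) form a set with at most `p³` elements:

* `g ↦ (σ ↦ ζ ^ g σ)` is a multiplicative cocycle with values in `μ_p`, hence (Hilbert 90 on the
  subgroup `D`) of the form `σ b / b`; `b ^ p` is fixed by `D`, i.e. lies in `ℚ_p` under the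
  embedding adapted to `P` (TW-SO-C), and defines a class in `ℚ_pˣ / (ℚ_pˣ)ᵖ` (order `p²`,
  TW-SO-A);
* two cocycles with the same class differ by a coboundary `σ ↦ j (ω σ − 1)`, `j ∈ ZMod p`.
-/
import Mathlib
import Fermat.Prelude.Def_GaloisRep_CompletionBridge
import Fermat.Agent.Lib.GalQbar
import Fermat.Agent.TW.Local.H90
import Fermat.Agent.TW.Local.PadicPow
import Fermat.Agent.TW.Local.DecField

set_option autoImplicit false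

namespace Fermat.Agent.TW.KummerCount

local notation "Qb" => AlgebraicClosure ℚ

local notation "GQb" => (AlgebraicClosure ℚ ≃ₐ[ℚ] AlgebraicClosure ℚ)

/-! ### Powers of a root of unity indexed by `ZMod p` -/

section ZPow

variable {K : Type*} [Field K] {p : ℕ} {ζ : K}

theorem pow_val_add [NeZero p] (hζ : ζ ^ p = 1) (i j : ZMod p) :
    ζ ^ (i + j).val = ζ ^ i.val * ζ ^ j.val := by
  rw [ZMod.val_add, ← pow_add, ← pow_eq_pow_mod _ hζ]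

theorem pow_val_mul (hζ : ζ ^ p = 1) (i j : ZMod p) :
    ζ ^ (i * j).val = (ζ ^ i.val) ^ j.val := by
  rw [ZMod.val_mul, ← pow_mul, ← pow_eq_pow_mod _ hζ]

theorem pow_val_natCast (hζ : ζ ^ p = 1) (n : ℕ) : ζ ^ ((n : ZMod p)).val = ζ ^ n := by
  rw [ZMod.val_natCast, ← pow_eq_pow_mod _ hζ]

theorem pow_val_injective [NeZero p] (hζ : IsPrimitiveRoot ζ p) {i j : ZMod p}
    (h : ζ ^ i.val = ζ ^ j.val) : i = j :=
  ZMod.val_injective p (hζ.pow_inj (ZMod.val_lt i) (ZMod.val_lt j) h)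

end ZPow

/-- The level-constant `ω`-twisted cocycles of a subgroup `D` with values in `ZMod p`. -/
def Zcyc {p : ℕ} (D : Subgroup GQb) (ω : GQb → ZMod p) : Set (D → ZMod p) :=
  {g | (∃ F : IntermediateField ℚ Qb, FiniteDimensional ℚ F ∧
      ∀ σ s : D, (∀ x ∈ F, (s : GQb) x = x) → g (σ * s) = g σ) ∧
    ∀ σ τ : D, g (σ * τ) = g σ + ω σ * g τ}

section Main

variable {p : ℕ} [Fact p.Prime]

/-- Hilbert 90: every cocycle in `Zcyc` has a Kummer generator. -/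
theorem exists_kummer_gen (D : Subgroup GQb) {ζ : Qb} (hζ : IsPrimitiveRoot ζ p)
    (ω : GQb → ZMod p) (hω : ∀ σ : GQb, σ ζ = ζ ^ (ω σ).val) (g : D → ZMod p)
    (hg : g ∈ Zcyc D ω) :
    ∃ b : Qb, b ≠ 0 ∧ ∀ σ : D, (σ : GQb) b = ζ ^ (g σ).val * b := by
  classical
  have hp : p.Prime := Fact.out
  have : NeZero p := ⟨hp.ne_zero⟩
  obtain ⟨⟨F, hF, hlev⟩, hcoc⟩ := hg
  let c : GQb → Qb := fun σ => if h : σ ∈ D then ζ ^ (g ⟨σ, h⟩).val else 1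
  have hcD : ∀ (σ : GQb) (h : σ ∈ D), c σ = ζ ^ (g ⟨σ, h⟩).val := fun σ h => dif_pos h
  have hnorm : Normal ℚ Qb := Fermat.Agent.Lib.GalQbar.normal_rat
  have hζ0 : ζ ≠ 0 := hζ.ne_zero hp.ne_zero
  obtain ⟨b, hb, hb'⟩ := KummerH90.hilbert90 F D c
    (by
      intro σ hσ τ hτ
      rw [hcD _ (D.mul_mem hσ hτ), hcD σ hσ, hcD τ hτ]
      have h1 := hcoc ⟨σ, hσ⟩ ⟨τ, hτ⟩
      have h2 : (⟨σ * τ, D.mul_mem hσ hτ⟩ : D) = ⟨σ, hσ⟩ * ⟨τ, hτ⟩ := rfl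
      rw [h2, h1, pow_val_add hζ.pow_eq_one, map_pow, hω σ, pow_val_mul hζ.pow_eq_one])
    (by
      intro σ hσ s hs hsF
      rw [hcD _ (D.mul_mem hσ hs), hcD σ hσ]
      have h1 := hlev ⟨σ, hσ⟩ ⟨s, hs⟩ (fun x hx => hsF ⟨x, hx⟩)
      have h2 : (⟨σ * s, D.mul_mem hσ hs⟩ : D) = ⟨σ, hσ⟩ * ⟨s, hs⟩ := rfl
      rw [h2, h1])
    (by
      rw [hcD 1 D.one_mem]
      exact pow_ne_zero _ hζ0)
  refine ⟨b, hb, fun σ => ?_⟩
  have h1 := hb' σ σ.2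
  rw [hcD σ σ.2, eq_div_iff hb] at h1
  exact h1.symm

/-- The `p`-th power of a Kummer generator is an element of `ℚ_p`. -/
theorem exists_padic_of_gen (D : Subgroup GQb) {φ : Qb →+* PadicAlgCl p}
    (hφ : ∀ x : Qb, (∀ σ ∈ D, σ x = x) ↔ φ x ∈ (algebraMap ℚ_[p] (PadicAlgCl p)).range)
    {ζ : Qb} (hζ : ζ ^ p = 1) (g : D → ZMod p) (b : Qb) (hb : b ≠ 0)
    (hgb : ∀ σ : D, (σ : GQb) b = ζ ^ (g σ).val * b) :
    ∃ α : ℚ_[p]ˣ, algebraMap ℚ_[p] (PadicAlgCl p) (α : ℚ_[p]) = (φ b) ^ p := by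
  have h1 : ∀ σ ∈ D, σ (b ^ p) = b ^ p := by
    intro σ hσ
    rw [map_pow, hgb ⟨σ, hσ⟩, mul_pow, ← pow_mul, mul_comm _ p, pow_mul, hζ, one_pow, one_mul]
  obtain ⟨α, hα⟩ := (hφ (b ^ p)).mp h1
  have hα0 : α ≠ 0 := by
    rintro rfl
    rw [map_zero, map_pow] at hα
    exact pow_ne_zero p ((map_ne_zero φ).mpr hb) hα.symm
  exact ⟨Units.mk0 α hα0, by rw [Units.val_mk0, hα, map_pow]⟩

/-- Two cocycles whose Kummer classes in `ℚ_pˣ / (ℚ_pˣ)ᵖ` agree differ by a coboundary. -/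
theorem exists_twist_of_class_eq (D : Subgroup GQb) {φ : Qb →+* PadicAlgCl p}
    (hφ : ∀ x : Qb, (∀ σ ∈ D, σ x = x) ↔ φ x ∈ (algebraMap ℚ_[p] (PadicAlgCl p)).range)
    {ζ : Qb} (hζ : IsPrimitiveRoot ζ p) (ω : GQb → ZMod p)
    (hω : ∀ σ : GQb, σ ζ = ζ ^ (ω σ).val) (g g' : D → ZMod p) (b b' : Qb) (hb : b ≠ 0)
    (hb' : b' ≠ 0) (hgb : ∀ σ : D, (σ : GQb) b = ζ ^ (g σ).val * b)
    (hgb' : ∀ σ : D, (σ : GQb) b' = ζ ^ (g' σ).val * b') (α α' : ℚ_[p]ˣ)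
    (hα : algebraMap ℚ_[p] (PadicAlgCl p) (α : ℚ_[p]) = (φ b) ^ p)
    (hα' : algebraMap ℚ_[p] (PadicAlgCl p) (α' : ℚ_[p]) = (φ b') ^ p)
    (hcl : (QuotientGroup.mk α : ℚ_[p]ˣ ⧸ (powMonoidHom p : ℚ_[p]ˣ →* ℚ_[p]ˣ).range) =
      QuotientGroup.mk α') :
    ∃ j : ZMod p, ∀ σ : D, g' σ = g σ + j * (ω σ - 1) := by
  have hp : p.Prime := Fact.out
  have : NeZero p := ⟨hp.ne_zero⟩
  have hζ1 := hζ.pow_eq_one
  have hζ0 : ζ ≠ 0 := hζ.ne_zero hp.ne_zero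
  obtain ⟨τ, hτ⟩ := QuotientGroup.eq.mp hcl
  have hτ' : α' = α * τ ^ p := by
    have h1 : τ ^ p = α⁻¹ * α' := hτ
    rw [h1, mul_inv_cancel_left]
  set am := algebraMap ℚ_[p] (PadicAlgCl p) with ham
  have hφb : φ b ≠ 0 := (map_ne_zero φ).mpr hb
  have hφb' : φ b' ≠ 0 := (map_ne_zero φ).mpr hb'
  have hτ0 : am (τ : ℚ_[p]) ≠ 0 := (map_ne_zero am).mpr τ.ne_zero
  -- `η = φ b' / (φ b · τ)` is a `p`-th root of unity
  have hη : (φ b' / (φ b * am (τ : ℚ_[p]))) ^ p = 1 := by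
    rw [div_pow, mul_pow, ← hα', ← hα, hτ', Units.val_mul, Units.val_pow_eq_pow_val, map_mul,
      map_pow]
    exact div_self (mul_ne_zero ((map_ne_zero am).mpr α.ne_zero) (pow_ne_zero p hτ0))
  have hφζ : IsPrimitiveRoot (φ ζ) p := hζ.map_of_injective φ.injective
  obtain ⟨i, -, hi⟩ := hφζ.eq_pow_of_pow_eq_one hη
  -- `t = b' / (b ζ^i)` is fixed by `D`
  have hζi : ζ ^ i ≠ 0 := pow_ne_zero i hζ0
  have ht : ∀ σ ∈ D, σ (b' / (b * ζ ^ i)) = b' / (b * ζ ^ i) := by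
    rw [hφ]
    refine ⟨(τ : ℚ_[p]), ?_⟩
    have hφζi : φ ζ ^ i ≠ 0 := pow_ne_zero i ((map_ne_zero φ).mpr hζ0)
    have hi' : φ b' = φ ζ ^ i * (φ b * am (τ : ℚ_[p])) := by
      rw [eq_div_iff (mul_ne_zero hφb hτ0)] at hi
      exact hi.symm
    rw [map_div₀, map_mul, map_pow, hi']
    field_simp
  refine ⟨(i : ZMod p), fun σ => ?_⟩
  have h1 := ht σ σ.2
  rw [map_div₀, map_mul, map_pow, hgb' σ, hgb σ, hω σ] at h1
  have hσb : ζ ^ (g σ).val * b * (ζ ^ (ω (σ : GQb)).val) ^ i ≠ 0 :=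
    mul_ne_zero (mul_ne_zero (pow_ne_zero _ hζ0) hb) (pow_ne_zero _ (pow_ne_zero _ hζ0))
  rw [div_eq_div_iff hσb (mul_ne_zero hb hζi)] at h1
  -- cancel `b b'`
  have h2 : ζ ^ (g' σ).val * ζ ^ i = ζ ^ (g σ).val * (ζ ^ (ω (σ : GQb)).val) ^ i := by
    have h3 : (b * b') * (ζ ^ (g' σ).val * ζ ^ i) =
        (b * b') * (ζ ^ (g σ).val * (ζ ^ (ω (σ : GQb)).val) ^ i) := by
      linear_combination h1
    exact mul_left_cancel₀ (mul_ne_zero hb hb') h3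
  have h4 : (ζ ^ (ω (σ : GQb)).val) ^ i = ζ ^ ((i : ZMod p) * ω (σ : GQb)).val := by
    rw [pow_val_mul hζ1, pow_val_natCast hζ1, ← pow_mul, ← pow_mul, mul_comm]
  rw [h4, ← pow_val_natCast hζ1 i, ← pow_val_add hζ1, ← pow_val_add hζ1] at h2
  have h5 := pow_val_injective hζ h2
  linear_combination h5

/-- **The Kummer count.**  At most `p³` level-constant `ω`-twisted cocycles `D_P → ZMod p`. -/
theorem zcyc_finite_card_le (hp2 : p ≠ 2) (P : ValuationSubring Qb) (hP : P.LiesOverPrime p)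
    {ζ : Qb} (hζ : IsPrimitiveRoot ζ p) (ω : GQb → ZMod p)
    (hω : ∀ σ : GQb, σ ζ = ζ ^ (ω σ).val) :
    (Zcyc (P.decompositionSubgroup ℚ) ω).Finite ∧
      Nat.card (Zcyc (P.decompositionSubgroup ℚ) ω) ≤ p ^ 3 := by
  classical
  have hp : p.Prime := Fact.out
  have : NeZero p := ⟨hp.ne_zero⟩
  obtain ⟨φ, hφ⟩ := Fermat.Agent.TW.KummerP.exists_ringHom_fixed_iff p P hP
  have h1 : ∀ g : Zcyc (P.decompositionSubgroup ℚ) ω, ∃ b : Qb, b ≠ 0 ∧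
      ∀ σ : P.decompositionSubgroup ℚ, (σ : GQb) b =
        ζ ^ ((g : ↥(P.decompositionSubgroup ℚ) → ZMod p) σ).val * b :=
    fun g => exists_kummer_gen _ hζ ω hω g.1 g.2
  choose bb hbb0 hbb using h1
  have h2 : ∀ g : Zcyc (P.decompositionSubgroup ℚ) ω, ∃ α : ℚ_[p]ˣ,
      algebraMap ℚ_[p] (PadicAlgCl p) (α : ℚ_[p]) = (φ (bb g)) ^ p :=
    fun g => exists_padic_of_gen _ hφ hζ.pow_eq_one g.1 (bb g) (hbb0 g) (hbb g)
  choose aa haa using h2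
  have hcardQ := Fermat.Agent.TW.KummerP.card_padic_units_quot_pow p hp2
  have hQfin : Finite (ℚ_[p]ˣ ⧸ (powMonoidHom p : ℚ_[p]ˣ →* ℚ_[p]ˣ).range) := by
    apply Nat.finite_of_card_ne_zero
    rw [hcardQ]
    exact pow_ne_zero 2 hp.ne_zero
  let Θ : Zcyc (P.decompositionSubgroup ℚ) ω →
      ℚ_[p]ˣ ⧸ (powMonoidHom p : ℚ_[p]ˣ →* ℚ_[p]ˣ).range := fun g => QuotientGroup.mk (aa g)
  have hne : Nonempty (Zcyc (P.decompositionSubgroup ℚ) ω) :=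
    ⟨⟨0, ⟨⊥, inferInstance, fun _ _ _ => rfl⟩, fun σ τ => by simp⟩⟩
  let rep : (ℚ_[p]ˣ ⧸ (powMonoidHom p : ℚ_[p]ˣ →* ℚ_[p]ˣ).range) →
      Zcyc (P.decompositionSubgroup ℚ) ω := fun κ => Classical.epsilon (fun g => Θ g = κ)
  have hrep : ∀ g, Θ (rep (Θ g)) = Θ g := fun g =>
    Classical.epsilon_spec (p := fun g' => Θ g' = Θ g) ⟨g, rfl⟩
  have h3 : ∀ g : Zcyc (P.decompositionSubgroup ℚ) ω, ∃ j : ZMod p,
      ∀ σ : P.decompositionSubgroup ℚ, (g : ↥(P.decompositionSubgroup ℚ) → ZMod p) σ =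
        (rep (Θ g) : ↥(P.decompositionSubgroup ℚ) → ZMod p) σ + j * (ω σ - 1) :=
    fun g => exists_twist_of_class_eq _ hφ hζ ω hω _ _ (bb (rep (Θ g))) (bb g) (hbb0 _) (hbb0 _)
      (hbb _) (hbb _) (aa (rep (Θ g))) (aa g) (haa _) (haa _) (hrep g)
  choose J hJ using h3
  let Φ : Zcyc (P.decompositionSubgroup ℚ) ω →
      (ℚ_[p]ˣ ⧸ (powMonoidHom p : ℚ_[p]ˣ →* ℚ_[p]ˣ).range) × ZMod p := fun g => (Θ g, J g)
  have hΦ : Function.Injective Φ := by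
    intro g g' h
    have e1 : Θ g = Θ g' := congrArg Prod.fst h
    have e2 : J g = J g' := congrArg Prod.snd h
    apply Subtype.ext
    funext σ
    rw [hJ g σ, hJ g' σ, e1, e2]
  have hfin : Finite (Zcyc (P.decompositionSubgroup ℚ) ω) := Finite.of_injective Φ hΦ
  refine ⟨Set.toFinite _, ?_⟩
  calc Nat.card (Zcyc (P.decompositionSubgroup ℚ) ω)
      ≤ Nat.card ((ℚ_[p]ˣ ⧸ (powMonoidHom p : ℚ_[p]ˣ →* ℚ_[p]ˣ).range) × ZMod p) :=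
        Nat.card_le_card_of_injective Φ hΦ
    _ = p ^ 3 := by
        rw [Nat.card_prod, hcardQ, Nat.card_zmod]
        ring

end Main

end Fermat.Agent.TW.KummerCount
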