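/-
TW (S56), task TW-SO: the strict-ordinary local condition at `p`.

For a place `P` over `p` with decomposition group `D`, and an "admissible" `rb`-stable line `k·v`
(unramified quotient, `x² = det²` on the line), the local condition is

  `Lso D rb v = B¹(D, ad⁰) + {c ∈ Z¹(D, ad⁰) : c(σ) v = 0 for all σ ∈ D}`.

The cocycles killing `v` are of the form `f • E_v` with `f` a `det rb`-twisted scalar cocycle, so
they are counted by Kummer theory (`Zdet`, at most `#k³` of them), and the two-dimensional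
"Borel" subalgebra of `sl₂` stabilising the line maps into them under the coboundary map; this
gives `#Lso ≤ #k⁴ = #H⁰ · #k · #B¹`.
-/
import Mathlib
import Fermat.Agent.TW.Selmer
import Fermat.Agent.TW.Hyp
import Fermat.Agent.TW.Basic
import Fermat.Agent.TW.ResHyp
import Fermat.Agent.TW.TangentLift
import Fermat.Agent.TW.Core
import Fermat.Agent.TW.Local.InertiaCyclo
import Fermat.Agent.TW.Local.KummerCount

set_option autoImplicit false

namespace Fermat.Agent.TW.StrictOrd

open Fermat.Agent.S53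

noncomputable section

variable {k : Type} [Field k]

/-! ### Counting -/

/-- First isomorphism theorem, counting form. -/
theorem card_eq_card_ker_mul_card_range {A B : Type*} [AddCommGroup A] [AddCommGroup B]
    (f : A →+ B) : Nat.card A = Nat.card f.ker * Nat.card f.range := by
  rw [AddSubgroup.card_eq_card_quotient_mul_card_addSubgroup f.ker,
    Nat.card_congr (QuotientAddGroup.quotientKerEquivRange f).toEquiv, mul_comm]

/-! ### The matrix `E_v` -/

/-- `v^⊥ = (−v₁, v₀)`. -/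
def vperp (v : Fin 2 → k) : Fin 2 → k := ![-v 1, v 0]

theorem vperp_zero (v : Fin 2 → k) : vperp v 0 = -v 1 := rfl

theorem vperp_one (v : Fin 2 → k) : vperp v 1 = v 0 := rfl

/-- `E_v = v ⊗ v^⊥`, so that `E_v u = det(v, u) · v`. -/
def Emat (v : Fin 2 → k) : Mat2 k := Matrix.of fun i j => v i * vperp v j

theorem Emat_apply (v : Fin 2 → k) (i j : Fin 2) : Emat v i j = v i * vperp v j := rfl

theorem trace_Emat (v : Fin 2 → k) : (Emat v).trace = 0 := by
  rw [Matrix.trace_fin_two]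
  simp only [Emat_apply, vperp_zero, vperp_one]
  ring

theorem Emat_mulVec (v u : Fin 2 → k) : (Emat v).mulVec u = (vperp v ⬝ᵥ u) • v := by
  funext i
  simp only [Matrix.mulVec, dotProduct, Fin.sum_univ_two, Emat_apply, Pi.smul_apply, smul_eq_mul,
    vperp_zero, vperp_one]
  ring

theorem vperp_dotProduct_self (v : Fin 2 → k) : vperp v ⬝ᵥ v = 0 := by
  simp only [dotProduct, Fin.sum_univ_two, vperp_zero, vperp_one]
  ring

theorem Emat_mulVec_self (v : Fin 2 → k) : (Emat v).mulVec v = 0 := by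
  rw [Emat_mulVec, vperp_dotProduct_self, zero_smul]

theorem Emat_ne_zero {v : Fin 2 → k} (hv : v ≠ 0) : Emat v ≠ 0 := by
  intro h
  apply hv
  have h01 := congrFun (congrFun h 0) 1
  have h10 := congrFun (congrFun h 1) 0
  simp only [Emat_apply, vperp_zero, vperp_one, Matrix.zero_apply] at h01 h10
  funext i
  fin_cases i
  · exact mul_self_eq_zero.mp h01
  · have : v 1 * v 1 = 0 := by linear_combination -h10
    exact mul_self_eq_zero.mp this

/-- If `det(v, u) = 0` and `v ≠ 0` then `u ∈ k·v`. -/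
theorem exists_smul_of_vperp_dotProduct_eq_zero {v : Fin 2 → k} (hv : v ≠ 0) (u : Fin 2 → k)
    (h : vperp v ⬝ᵥ u = 0) : ∃ t : k, u = t • v := by
  simp only [dotProduct, Fin.sum_univ_two, vperp_zero, vperp_one] at h
  by_cases hv0 : v 0 = 0
  · have hv1 : v 1 ≠ 0 := by
      intro hv1
      apply hv
      funext i
      fin_cases i
      · exact hv0
      · exact hv1
    refine ⟨u 1 / v 1, ?_⟩
    funext i
    fin_cases i
    · show u 0 = u 1 / v 1 * v 0
      rw [hv0, mul_zero]
      rw [hv0, zero_mul, add_zero] at h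
      have h' : v 1 * u 0 = 0 := by linear_combination -h
      exact (mul_eq_zero.mp h').resolve_left hv1
    · show u 1 = u 1 / v 1 * v 1
      rw [div_mul_cancel₀ _ hv1]
  · refine ⟨u 0 / v 0, ?_⟩
    funext i
    fin_cases i
    · show u 0 = u 0 / v 0 * v 0
      rw [div_mul_cancel₀ _ hv0]
    · show u 1 = u 0 / v 0 * v 1
      field_simp
      linear_combination h

/-- A trace-zero matrix killing `v ≠ 0` is a multiple of `E_v`. -/
theorem exists_eq_smul_Emat {v : Fin 2 → k} (hv : v ≠ 0) (Y : Mat2 k) (hY : Y.trace = 0)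
    (hYv : Y.mulVec v = 0) : ∃ f : k, Y = f • Emat v := by
  have e0 : Y 0 0 * v 0 + Y 0 1 * v 1 = 0 := by
    have h := congrFun hYv 0
    simpa [Matrix.mulVec, dotProduct, Fin.sum_univ_two] using h
  have e1 : Y 1 0 * v 0 + Y 1 1 * v 1 = 0 := by
    have h := congrFun hYv 1
    simpa [Matrix.mulVec, dotProduct, Fin.sum_univ_two] using h
  have ht : Y 0 0 + Y 1 1 = 0 := by rw [← Matrix.trace_fin_two]; exact hY
  by_cases hv0 : v 0 = 0
  · have hv1 : v 1 ≠ 0 := by
      intro hv1
      apply hv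
      funext i
      fin_cases i
      · exact hv0
      · exact hv1
    rw [hv0, mul_zero, zero_add] at e0 e1
    have h01 : Y 0 1 = 0 := (mul_eq_zero.mp e0).resolve_right hv1
    have h11 : Y 1 1 = 0 := (mul_eq_zero.mp e1).resolve_right hv1
    have h00 : Y 0 0 = 0 := by rw [h11, add_zero] at ht; exact ht
    refine ⟨-(Y 1 0) / (v 1 * v 1), ?_⟩
    ext i j
    fin_cases i <;> fin_cases j
    · show Y 0 0 = -(Y 1 0) / (v 1 * v 1) * (v 0 * vperp v 0)
      rw [h00, hv0, zero_mul, mul_zero]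
    · show Y 0 1 = -(Y 1 0) / (v 1 * v 1) * (v 0 * vperp v 1)
      rw [h01, hv0, zero_mul, mul_zero]
    · show Y 1 0 = -(Y 1 0) / (v 1 * v 1) * (v 1 * vperp v 0)
      rw [vperp_zero]
      field_simp
    · show Y 1 1 = -(Y 1 0) / (v 1 * v 1) * (v 1 * vperp v 1)
      rw [vperp_one]
      rw [h11, hv0, mul_zero, mul_zero]
  · refine ⟨Y 0 1 / (v 0 * v 0), ?_⟩
    ext i j
    fin_cases i <;> fin_cases j
    · show Y 0 0 = Y 0 1 / (v 0 * v 0) * (v 0 * vperp v 0)
      rw [vperp_zero]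
      field_simp
      linear_combination e0
    · show Y 0 1 = Y 0 1 / (v 0 * v 0) * (v 0 * vperp v 1)
      rw [vperp_one]
      field_simp
    · show Y 1 0 = Y 0 1 / (v 0 * v 0) * (v 1 * vperp v 0)
      rw [vperp_zero]
      field_simp
      linear_combination v 0 * e1 + v 1 * e0 - v 0 * v 1 * ht
    · show Y 1 1 = Y 0 1 / (v 0 * v 0) * (v 1 * vperp v 1)
      rw [vperp_one]
      field_simp
      linear_combination v 0 * ht - e0

set_option linter.unusedSimpArgs false in
theorem mul_Emat_mul_adjugate (M : Mat2 k) (v : Fin 2 → k) :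
    M * Emat v * M.adjugate = Emat (M.mulVec v) := by
  rw [Matrix.adjugate_fin_two]
  ext i j
  fin_cases i <;> fin_cases j <;>
    simp [Matrix.mul_apply, Fin.sum_univ_two, Emat_apply, vperp_zero, vperp_one, Matrix.mulVec,
      dotProduct] <;>
    ring

theorem Emat_smul (x : k) (v : Fin 2 → k) : Emat (x • v) = (x * x) • Emat v := by
  ext i j
  fin_cases i <;> fin_cases j <;> simp [Emat_apply, vperp_zero, vperp_one] <;> ring

theorem det_rb_ne_zero (rb : GQ →* Mat2 k) (σ : GQ) : (rb σ).det ≠ 0 := by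
  rw [← detChar_apply]
  exact Units.ne_zero _

theorem rb_inv_eq (rb : GQ →* Mat2 k) (σ : GQ) :
    rb σ⁻¹ = (rb σ).det⁻¹ • (rb σ).adjugate := by
  have hdet := det_rb_ne_zero rb σ
  have h1 : rb σ * (rb σ).adjugate = (rb σ).det • 1 := Matrix.mul_adjugate _
  calc rb σ⁻¹ = (rb σ).det⁻¹ • (rb σ⁻¹ * ((rb σ).det • (1 : Mat2 k))) := by
        rw [Matrix.mul_smul, mul_one, smul_smul, inv_mul_cancel₀ hdet, one_smul]
    _ = (rb σ).det⁻¹ • (rb σ⁻¹ * (rb σ * (rb σ).adjugate)) := by rw [h1]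
    _ = (rb σ).det⁻¹ • (rb σ).adjugate := by rw [← mul_assoc, rb_inv_mul_rb, one_mul]

/-- On a stable line with eigenvalue `x`, `x² = det²`, the adjoint action on `E_v` is by `det`. -/
theorem adAct_Emat (rb : GQ →* Mat2 k) (σ : GQ) (v : Fin 2 → k) (x : k)
    (h : (rb σ).mulVec v = x • v) (hx : x * x = (rb σ).det * (rb σ).det) :
    adAct rb 1 σ (Emat v) = (rb σ).det • Emat v := by
  have hdet := det_rb_ne_zero rb σ
  rw [adAct_apply, one_hom_apply_coe, one_smul, rb_inv_eq, Matrix.mul_smul, mul_Emat_mul_adjugate,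
    h, Emat_smul, hx, smul_smul]
  congr 1
  field_simp

/-- The eigenvalue of an invertible matrix on a non-zero vector is non-zero. -/
theorem eigen_ne_zero (rb : GQ →* Mat2 k) (σ : GQ) {v : Fin 2 → k} (hv : v ≠ 0) (x : k)
    (h : (rb σ).mulVec v = x • v) : x ≠ 0 := by
  intro hx
  apply hv
  rw [hx, zero_smul] at h
  have h1 : (rb σ⁻¹ * rb σ).mulVec v = 0 := by
    rw [← Matrix.mulVec_mulVec, h, Matrix.mulVec_zero]
  rwa [rb_inv_mul_rb, Matrix.one_mulVec] at h1

theorem rb_inv_mulVec (rb : GQ →* Mat2 k) (σ : GQ) {v : Fin 2 → k} (x : k) (hx : x ≠ 0)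
    (h : (rb σ).mulVec v = x • v) : (rb σ⁻¹).mulVec v = x⁻¹ • v := by
  have h1 : (rb σ⁻¹).mulVec (x • v) = v := by
    rw [← h, Matrix.mulVec_mulVec, rb_inv_mul_rb, Matrix.one_mulVec]
  rw [Matrix.mulVec_smul] at h1
  rw [← h1, smul_smul, inv_mul_cancel₀ hx, one_smul, h1]

/-! ### The local condition attached to a line -/

/-- Functions on `D` all of whose values kill `v`. -/
def Wval (D : Subgroup GQ) (v : Fin 2 → k) : Submodule k (D → Mat2 k) where
  carrier := {c | ∀ σ, (c σ).mulVec v = 0}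
  add_mem' := fun {c c'} h h' σ => by
    rw [Pi.add_apply, Matrix.add_mulVec, h σ, h' σ, add_zero]
  zero_mem' := fun σ => by rw [Pi.zero_apply, Matrix.zero_mulVec]
  smul_mem' := fun a c h σ => by rw [Pi.smul_apply, Matrix.smul_mulVec, h σ, smul_zero]

theorem mem_Wval (D : Subgroup GQ) (v : Fin 2 → k) (c : D → Mat2 k) :
    c ∈ Wval D v ↔ ∀ σ, (c σ).mulVec v = 0 := Iff.rfl

/-- Cocycles on `D` whose values kill `v`. -/
def Tso (D : Subgroup GQ) (rb : GQ →* Mat2 k) (v : Fin 2 → k) : Submodule k (D → Mat2 k) :=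
  Z1On D rb 1 ⊓ Wval D v

/-- The strict-ordinary local condition attached to the line `k·v`. -/
def Lso (D : Subgroup GQ) (rb : GQ →* Mat2 k) (v : Fin 2 → k) : Submodule k (D → Mat2 k) :=
  B1On D rb 1 ⊔ Tso D rb v

/-- Level-constant `det rb`-twisted scalar cocycles on `D`. -/
def Zdet (D : Subgroup GQ) (rb : GQ →* Mat2 k) : Set (D → k) :=
  {f | LevelConstOn D f ∧ ∀ σ τ : D, f (σ * τ) = f σ + (rb σ).det * f τ}

/-- The line `k·v` is stable under `D`, with eigenvalues of square `det²`. -/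
def StableLine (D : Subgroup GQ) (rb : GQ →* Mat2 k) (v : Fin 2 → k) : Prop :=
  ∀ σ ∈ D, ∃ x : k, (rb σ).mulVec v = x • v ∧ x * x = (rb σ).det * (rb σ).det

theorem exists_injective_Tso_Zdet (D : Subgroup GQ) (rb : GQ →* Mat2 k) {v : Fin 2 → k}
    (hv : v ≠ 0) (hst : StableLine D rb v) :
    ∃ ι : Tso D rb v → Zdet D rb, Function.Injective ι := by
  have hE := Emat_ne_zero hv
  have hex : ∀ c : Tso D rb v, ∃ f : D → k, ∀ σ, (c : D → Mat2 k) σ = f σ • Emat v := by
    intro c
    have hc1 : (c : D → Mat2 k) ∈ Z1On D rb 1 := c.2.1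
    have hc2 : (c : D → Mat2 k) ∈ Wval D v := c.2.2
    rw [mem_Z1On] at hc1
    rw [mem_Wval] at hc2
    have : ∀ σ, ∃ f : k, (c : D → Mat2 k) σ = f • Emat v := fun σ =>
      exists_eq_smul_Emat hv _ (hc1.1 σ) (hc2 σ)
    choose f hf using this
    exact ⟨f, hf⟩
  choose F hF using hex
  have hmem : ∀ c : Tso D rb v, F c ∈ Zdet D rb := by
    intro c
    have hc1 : (c : D → Mat2 k) ∈ Z1On D rb 1 := c.2.1
    rw [mem_Z1On] at hc1
    obtain ⟨-, hcoc, L, hL, hlev⟩ := hc1
    refine ⟨⟨L, hL, fun g s hs => ?_⟩, fun σ τ => ?_⟩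
    · have h1 := hlev g s hs
      rw [hF c, hF c] at h1
      exact smul_left_injective k hE h1
    · have h1 := hcoc σ τ
      obtain ⟨x, hx, hxx⟩ := hst σ σ.2
      rw [hF c, hF c, hF c, map_smul, adAct_Emat rb σ v x hx hxx, smul_smul, ← add_smul] at h1
      have h2 := smul_left_injective k hE h1
      rw [h2, mul_comm]
  refine ⟨fun c => ⟨F c, hmem c⟩, fun c c' h => ?_⟩
  have h1 : F c = F c' := congrArg Subtype.val h
  apply Subtype.ext
  funext σ
  rw [hF c, hF c', h1]

/-- The coboundary map on trace-zero matrices, restricted to `D`. -/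
def cobOn (D : Subgroup GQ) (rb : GQ →* Mat2 k) : sl2 k →ₗ[k] (D → Mat2 k) :=
  ((resOn D).comp (cob rb 1)).domRestrict (sl2 k)

theorem cobOn_apply (D : Subgroup GQ) (rb : GQ →* Mat2 k) (X : sl2 k) (σ : D) :
    cobOn D rb X σ = adAct rb 1 σ (X : Mat2 k) - X := rfl

theorem range_cobOn (D : Subgroup GQ) (rb : GQ →* Mat2 k) :
    LinearMap.range (cobOn D rb) = B1On D rb 1 := by
  ext c
  rw [LinearMap.mem_range, mem_B1On]
  constructor
  · rintro ⟨X, rfl⟩
    exact ⟨X, X.2, fun σ => rfl⟩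
  · rintro ⟨X, hX, h⟩
    exact ⟨⟨X, hX⟩, funext fun σ => (h σ).symm⟩

/-- `#H⁰(D, ad⁰) · #B¹(D, ad⁰) = #k³`. -/
theorem card_H0On_mul_card_B1On [Finite k] (D : Subgroup GQ) (rb : GQ →* Mat2 k) :
    Nat.card (H0On D rb 1) * Nat.card (B1On D rb 1) = Nat.card k ^ 3 := by
  rw [← ResHyp.card_sl2, card_eq_card_ker_mul_card_range (cobOn D rb).toAddMonoidHom]
  congr 1
  · -- kernel = invariants
    refine Nat.card_congr
      { toFun := fun X => ⟨⟨X.1, X.2.1⟩, ?_⟩
        invFun := fun X => ⟨X.1.1, ?_⟩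
        left_inv := fun X => rfl
        right_inv := fun X => rfl }
    · rw [AddMonoidHom.mem_ker]
      funext σ
      show adAct rb 1 σ X.1 - X.1 = 0
      rw [X.2.2 σ σ.2, sub_self]
    · refine ⟨X.1.2, fun σ hσ => ?_⟩
      have h1 := congrFun ((AddMonoidHom.mem_ker).1 X.2) ⟨σ, hσ⟩
      exact sub_eq_zero.mp h1
  · refine Nat.card_congr (Equiv.setCongr ?_)
    ext c
    rw [← range_cobOn]
    rfl

/-- The functional `X ↦ det(v, X v)` on trace-zero matrices; its kernel is the Borel subalgebra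
of the line `k·v`. -/
def borFun (v : Fin 2 → k) : sl2 k →ₗ[k] k where
  toFun X := vperp v ⬝ᵥ (X : Mat2 k).mulVec v
  map_add' X Y := by
    rw [Submodule.coe_add, Matrix.add_mulVec, dotProduct_add]
  map_smul' a X := by
    rw [Submodule.coe_smul, Matrix.smul_mulVec, dotProduct_smul, RingHom.id_apply]

theorem borFun_apply (v : Fin 2 → k) (X : sl2 k) :
    borFun v X = vperp v ⬝ᵥ (X : Mat2 k).mulVec v := rfl

/-- The Borel subalgebra has at least `#k²` elements. -/
theorem card_ker_borFun_ge [Finite k] (v : Fin 2 → k) :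
    Nat.card k ^ 2 ≤ Nat.card (borFun v).toAddMonoidHom.ker := by
  have h1 := card_eq_card_ker_mul_card_range (borFun v).toAddMonoidHom
  rw [ResHyp.card_sl2] at h1
  have h2 : Nat.card (borFun v).toAddMonoidHom.range ≤ Nat.card k :=
    Nat.card_le_card_of_injective _ Subtype.val_injective
  have hk : 0 < Nat.card k := Nat.card_pos
  have h3 : Nat.card k ^ 2 * Nat.card k ≤
      Nat.card (borFun v).toAddMonoidHom.ker * Nat.card k := by
    calc Nat.card k ^ 2 * Nat.card k = Nat.card k ^ 3 := by ring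
      _ = Nat.card (borFun v).toAddMonoidHom.ker * Nat.card (borFun v).toAddMonoidHom.range := h1
      _ ≤ Nat.card (borFun v).toAddMonoidHom.ker * Nat.card k := Nat.mul_le_mul_left _ h2
  exact Nat.le_of_mul_le_mul_right h3 hk

/-- The coboundary of an element of the Borel subalgebra kills `v` on `D`. -/
theorem cobOn_mem_Wval (D : Subgroup GQ) (rb : GQ →* Mat2 k) {v : Fin 2 → k} (hv : v ≠ 0)
    (hst : StableLine D rb v) (X : sl2 k) (hX : borFun v X = 0) :
    cobOn D rb X ∈ Wval D v := by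
  intro σ
  obtain ⟨x, hx, -⟩ := hst σ σ.2
  have hx0 := eigen_ne_zero rb σ hv x hx
  obtain ⟨t, ht⟩ := exists_smul_of_vperp_dotProduct_eq_zero hv _ hX
  rw [cobOn_apply, adAct_apply, one_hom_apply_coe, one_smul, Matrix.sub_mulVec,
    ← Matrix.mulVec_mulVec, ← Matrix.mulVec_mulVec, rb_inv_mulVec rb σ x hx0 hx,
    Matrix.mulVec_smul, ht, Matrix.mulVec_smul, Matrix.mulVec_smul, hx, smul_smul, smul_smul,
    mul_right_comm, inv_mul_cancel₀ hx0, one_mul, sub_self]

theorem cobOn_mem_Z1On (D : Subgroup GQ) {rb : GQ →* Mat2 k} (hrb : FiniteLevel rb) (X : sl2 k) :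
    cobOn D rb X ∈ Z1On D rb 1 := by
  have h1 : cob rb 1 (X : Mat2 k) ∈ Z1 rb 1 := B1_le_Z1_one hrb ⟨X, X.2, rfl⟩
  exact resOn_mem_Z1On D h1

theorem B1On_le_Z1On (D : Subgroup GQ) {rb : GQ →* Mat2 k} (hrb : FiniteLevel rb) :
    B1On D rb 1 ≤ Z1On D rb 1 := by
  rw [← range_cobOn]
  rintro c ⟨X, rfl⟩
  exact cobOn_mem_Z1On D hrb X

theorem Lso_le_Z1On (D : Subgroup GQ) {rb : GQ →* Mat2 k} (hrb : FiniteLevel rb)
    (v : Fin 2 → k) : Lso D rb v ≤ Z1On D rb 1 :=
  sup_le (B1On_le_Z1On D hrb) inf_le_left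

/-- The counting bound: `#Lso ≤ #k⁴`, given the Kummer count `#Zdet ≤ #k³`. -/
theorem card_Lso_le [Finite k] (D : Subgroup GQ) {rb : GQ →* Mat2 k} (hrb : FiniteLevel rb)
    {v : Fin 2 → k} (hv : v ≠ 0) (hst : StableLine D rb v) (hfin : (Zdet D rb).Finite)
    (hcard : Nat.card (Zdet D rb) ≤ Nat.card k ^ 3) :
    Finite (Lso D rb v) ∧ Nat.card (Lso D rb v) ≤ Nat.card k ^ 4 := by
  obtain ⟨ι, hι⟩ := exists_injective_Tso_Zdet D rb hv hst
  have : Finite (Zdet D rb) := hfin
  have hTfin : Finite (Tso D rb v) := Finite.of_injective ι hι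
  have hTcard : Nat.card (Tso D rb v) ≤ Nat.card k ^ 3 :=
    (Nat.card_le_card_of_injective ι hι).trans hcard
  have : Finite (sl2 k) := Finite.of_injective _ Subtype.val_injective
  -- the sum map
  set Ψ : (sl2 k × Tso D rb v) →ₗ[k] (D → Mat2 k) :=
    (cobOn D rb).coprod (Tso D rb v).subtype with hΨ
  have hrange : LinearMap.range Ψ = Lso D rb v := by
    rw [hΨ, LinearMap.range_coprod, range_cobOn, Submodule.range_subtype]
    rfl
  have hLfin : Finite (Lso D rb v) := by
    rw [← hrange]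
    exact Finite.of_surjective (fun x => (⟨Ψ x, LinearMap.mem_range_self Ψ x⟩ : LinearMap.range Ψ))
      (by rintro ⟨_, x, rfl⟩; exact ⟨x, rfl⟩)
  refine ⟨hLfin, ?_⟩
  have h1 := card_eq_card_ker_mul_card_range Ψ.toAddMonoidHom
  have hr : Nat.card Ψ.toAddMonoidHom.range = Nat.card (Lso D rb v) := by
    refine Nat.card_congr (Equiv.setCongr ?_)
    ext c
    rw [← hrange]
    rfl
  rw [hr, Nat.card_prod, ResHyp.card_sl2] at h1
  -- the Borel subalgebra embeds in the kernel
  have hker : Nat.card k ^ 2 ≤ Nat.card Ψ.toAddMonoidHom.ker := by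
    refine (card_ker_borFun_ge v).trans ?_
    have hmemT : ∀ X : (borFun v).toAddMonoidHom.ker, -cobOn D rb X.1 ∈ Tso D rb v := fun X =>
      neg_mem ⟨cobOn_mem_Z1On D hrb X.1, cobOn_mem_Wval D rb hv hst X.1 X.2⟩
    refine Nat.card_le_card_of_injective
      (fun X => (⟨(X.1, ⟨-cobOn D rb X.1, hmemT X⟩), ?_⟩ : Ψ.toAddMonoidHom.ker)) ?_
    · rw [AddMonoidHom.mem_ker]
      show cobOn D rb X.1 + -cobOn D rb X.1 = 0
      rw [add_neg_cancel]
    · intro X Y h
      have h2 := congrArg (fun z : Ψ.toAddMonoidHom.ker => z.1.1) h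
      exact Subtype.ext h2
  have hk : 0 < Nat.card k := Nat.card_pos
  have h3 : Nat.card k ^ 2 * Nat.card (Lso D rb v) ≤ Nat.card k ^ 2 * Nat.card k ^ 4 := by
    calc Nat.card k ^ 2 * Nat.card (Lso D rb v)
        ≤ Nat.card Ψ.toAddMonoidHom.ker * Nat.card (Lso D rb v) := Nat.mul_le_mul_right _ hker
      _ = Nat.card k ^ 3 * Nat.card (Tso D rb v) := h1.symm
      _ ≤ Nat.card k ^ 3 * Nat.card k ^ 3 := Nat.mul_le_mul_left _ hTcard
      _ = Nat.card k ^ 2 * Nat.card k ^ 4 := by ring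
  exact Nat.le_of_mul_le_mul_left h3 (pow_pos hk 2)

/-- The local bound for `Lso`. -/
theorem locBound_Lso [Finite k] (P : ValuationSubring (AlgebraicClosure ℚ)) {rb : GQ →* Mat2 k}
    (hrb : FiniteLevel rb) {v : Fin 2 → k} (hv : v ≠ 0)
    (hst : StableLine (P.decompositionSubgroup ℚ) rb v)
    (hfin : (Zdet (P.decompositionSubgroup ℚ) rb).Finite)
    (hcard : Nat.card (Zdet (P.decompositionSubgroup ℚ) rb) ≤ Nat.card k ^ 3) :
    LocBound rb P 1 (Lso (P.decompositionSubgroup ℚ) rb v) := by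
  obtain ⟨h1, h2⟩ := card_Lso_le (P.decompositionSubgroup ℚ) hrb hv hst hfin hcard
  refine ⟨Lso_le_Z1On _ hrb v, le_sup_left, h1, ?_⟩
  have h3 := card_H0On_mul_card_B1On (P.decompositionSubgroup ℚ) rb
  calc Nat.card (Lso (P.decompositionSubgroup ℚ) rb v) ≤ Nat.card k ^ 4 := h2
    _ = Nat.card (H0On (P.decompositionSubgroup ℚ) rb 1) * Nat.card k ^ 1 *
        Nat.card (B1On (P.decompositionSubgroup ℚ) rb 1) := by
      rw [mul_right_comm, h3]
      ring

/-- The local bound for the coboundaries themselves. -/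
theorem locBound_B1On [Finite k] (P : ValuationSubring (AlgebraicClosure ℚ)) {rb : GQ →* Mat2 k}
    (hrb : FiniteLevel rb) :
    LocBound rb P 1 (B1On (P.decompositionSubgroup ℚ) rb 1) := by
  have : Finite (sl2 k) := Finite.of_injective _ Subtype.val_injective
  have hfin : Finite (B1On (P.decompositionSubgroup ℚ) rb 1) := by
    rw [← range_cobOn]
    exact Finite.of_surjective
      (fun x => (⟨cobOn _ rb x, LinearMap.mem_range_self _ x⟩ :
        LinearMap.range (cobOn (P.decompositionSubgroup ℚ) rb)))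
      (by rintro ⟨_, x, rfl⟩; exact ⟨x, rfl⟩)
  refine ⟨B1On_le_Z1On _ hrb, le_rfl, hfin, ?_⟩
  have hH : 0 < Nat.card (H0On (P.decompositionSubgroup ℚ) rb 1) := by
    have : Finite (H0On (P.decompositionSubgroup ℚ) rb 1) :=
      Finite.of_injective _ Subtype.val_injective
    exact Nat.card_pos
  have hk : 0 < Nat.card k := Nat.card_pos
  calc Nat.card (B1On (P.decompositionSubgroup ℚ) rb 1)
      = 1 * Nat.card (B1On (P.decompositionSubgroup ℚ) rb 1) := (one_mul _).symm
    _ ≤ (Nat.card (H0On (P.decompositionSubgroup ℚ) rb 1) * Nat.card k ^ 1) *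
        Nat.card (B1On (P.decompositionSubgroup ℚ) rb 1) :=
      Nat.mul_le_mul_right _ (Nat.mul_pos hH (pow_pos hk 1))

/-! ### Admissible lines -/

/-- The line `k·v` is admissible at `P`: stable under the decomposition group with eigenvalues of
square `det²`, and inertia acts trivially on the quotient. -/
def Adm (rb : GQ →* Mat2 k) (P : ValuationSubring (AlgebraicClosure ℚ)) (v : Fin 2 → k) : Prop :=
  v ≠ 0 ∧ StableLine (P.decompositionSubgroup ℚ) rb v ∧
    ∀ σ ∈ P.inertiaSubgroupIn ℚ, ∀ u : Fin 2 → k, ∃ t : k, (rb σ).mulVec u - u = t • v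

theorem inertiaSubgroupIn_le_decompositionSubgroup (P : ValuationSubring (AlgebraicClosure ℚ)) :
    P.inertiaSubgroupIn ℚ ≤ P.decompositionSubgroup ℚ := by
  rintro σ ⟨τ, -, rfl⟩
  exact τ.2

/-- If inertia does not act through `det = 1`, the admissible line is unique. -/
theorem adm_unique (rb : GQ →* Mat2 k) (P : ValuationSubring (AlgebraicClosure ℚ))
    (hI : ∃ σ ∈ P.inertiaSubgroupIn ℚ, (rb σ).det ≠ 1) {v v' : Fin 2 → k} (h : Adm rb P v)
    (h' : Adm rb P v') : ∃ t : k, v' = t • v := by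
  by_contra hne
  obtain ⟨σ, hσ, hdet⟩ := hI
  have hσD := inertiaSubgroupIn_le_decompositionSubgroup P hσ
  apply hdet
  -- `rb σ` fixes `v`
  have e1 : (rb σ).mulVec v = v := by
    obtain ⟨x, hx, -⟩ := h.2.1 σ hσD
    obtain ⟨t, ht⟩ := h'.2.2 σ hσ v
    by_cases ht0 : t = 0
    · rw [ht0, zero_smul] at ht
      exact sub_eq_zero.mp ht
    · exfalso
      apply hne
      refine ⟨t⁻¹ * (x - 1), ?_⟩
      rw [hx] at ht
      rw [mul_smul, sub_smul, one_smul, ht, smul_smul, inv_mul_cancel₀ ht0, one_smul]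
  -- `rb σ` fixes `v'`
  have e2 : (rb σ).mulVec v' = v' := by
    obtain ⟨x, hx, -⟩ := h'.2.1 σ hσD
    obtain ⟨t, ht⟩ := h.2.2 σ hσ v'
    by_cases hx1 : x = 1
    · rw [hx, hx1, one_smul]
    · exfalso
      apply hne
      refine ⟨(x - 1)⁻¹ * t, ?_⟩
      rw [hx] at ht
      have hx1' : x - 1 ≠ 0 := sub_ne_zero.mpr hx1
      rw [mul_smul, ← ht, ← one_smul k (x • v' - v'), smul_smul, mul_one]
      have : x • v' - v' = (x - 1) • v' := by rw [sub_smul, one_smul]
      rw [this, smul_smul, inv_mul_cancel₀ hx1', one_smul]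
  have hY : rb σ - 1 = 0 := by
    by_contra hY
    apply hne
    refine ResHyp.exists_smul_of_mulVec_eq_zero (rb σ - 1) hY v v' h.1 ?_ ?_
    · rw [Matrix.sub_mulVec, Matrix.one_mulVec, e1, sub_self]
    · rw [Matrix.sub_mulVec, Matrix.one_mulVec, e2, sub_self]
  rw [sub_eq_zero.mp hY, Matrix.det_one]

/-- The strict-ordinary local conditions at the places over `p`. -/
def LpSO (rb : GQ →* Mat2 k) : LocFamily k := fun P =>
  open Classical in
  if h : ∃ v, Adm rb P v then Lso (P.decompositionSubgroup ℚ) rb h.choose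
  else B1On (P.decompositionSubgroup ℚ) rb 1

/-! ### First-order lifts -/

open TangentLift

/-- Constant terms of a vector over `k[ε]`. -/
def fstV (B : Fin 2 → DualNumber k) : Fin 2 → k := fun i => (B i).fst

/-- `ε`-coefficients of a vector over `k[ε]`. -/
def sndV (B : Fin 2 → DualNumber k) : Fin 2 → k := fun i => (B i).snd

theorem fstV_mulVec (M : Mat2 (DualNumber k)) (B : Fin 2 → DualNumber k) :
    fstV (M.mulVec B) = (fstM M).mulVec (fstV B) := by
  funext i
  simp only [fstV, Matrix.mulVec, dotProduct, fstM_apply, TrivSqZeroExt.fst_sum,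
    TrivSqZeroExt.fst_mul]

theorem sndV_mulVec (M : Mat2 (DualNumber k)) (B : Fin 2 → DualNumber k) :
    sndV (M.mulVec B) = (fstM M).mulVec (sndV B) + (sndM M).mulVec (fstV B) := by
  funext i
  simp only [sndV, fstV, Matrix.mulVec, dotProduct, fstM_apply, sndM_apply, Pi.add_apply,
    TrivSqZeroExt.snd_sum, TrivSqZeroExt.snd_mul, smul_eq_mul, MulOpposite.smul_eq_mul_unop,
    MulOpposite.unop_op, Finset.sum_add_distrib]

theorem fstV_smul (x : DualNumber k) (B : Fin 2 → DualNumber k) :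
    fstV (x • B) = x.fst • fstV B := by
  funext i
  simp only [fstV, Pi.smul_apply, smul_eq_mul, TrivSqZeroExt.fst_mul]

theorem sndV_smul (x : DualNumber k) (B : Fin 2 → DualNumber k) :
    sndV (x • B) = x.fst • sndV B + x.snd • fstV B := by
  funext i
  simp only [sndV, fstV, Pi.smul_apply, Pi.add_apply, smul_eq_mul, TrivSqZeroExt.snd_mul,
    MulOpposite.smul_eq_mul_unop, MulOpposite.unop_op]

theorem fstM_liftMat (rb : GQ →* Mat2 k) (c : GQ → Mat2 k) (σ : GQ) :
    fstM (liftMat rb c σ) = rb σ := by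
  ext i j
  simp [fstM_apply, liftMat_apply]

theorem sndM_liftMat (rb : GQ →* Mat2 k) (c : GQ → Mat2 k) (σ : GQ) :
    sndM (liftMat rb c σ) = c σ * rb σ := by
  ext i j
  simp [sndM_apply, liftMat_apply]

/-- Every element of `GQ` acts on the `p`-th roots of unity by some power. -/
theorem exists_cyclo_exponent (p : ℕ) [Fact p.Prime] (σ : GQ) :
    ∃ a : ℕ, ∀ μ : AlgebraicClosure ℚ, μ ^ p = 1 → σ μ = μ ^ a := by
  have hp : p.Prime := Fact.out
  have : NeZero (p : ℚ) := ⟨by exact_mod_cast hp.ne_zero⟩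
  have : NeZero p := ⟨hp.ne_zero⟩
  obtain ⟨ζ, hζ⟩ := HasEnoughRootsOfUnity.exists_primitiveRoot (AlgebraicClosure ℚ) p
  have h1 : (σ ζ) ^ p = 1 := by rw [← map_pow, hζ.pow_eq_one, map_one]
  obtain ⟨a, -, ha⟩ := hζ.eq_pow_of_pow_eq_one h1
  refine ⟨a, fun μ hμ => ?_⟩
  obtain ⟨j, -, hj⟩ := hζ.eq_pow_of_pow_eq_one hμ
  rw [← hj, map_pow, ← ha, ← pow_mul, ← pow_mul, mul_comm]

/-- The determinant of an endomorphism which is triangular in a basis. -/
theorem det_eq_mul_of_triangular {A : Type*} [CommRing A] {V : Type*} [AddCommGroup V]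
    [Module A V] (b : Module.Basis (Fin 2) A V) (f : V →ₗ[A] V) (x z : A)
    (h0 : f (b 0) = x • b 0) (h1 : f (b 1) - z • b 1 ∈ Submodule.span A {b 0}) :
    LinearMap.det f = x * z := by
  rw [← LinearMap.det_toMatrix b, Matrix.det_fin_two]
  obtain ⟨t, ht⟩ := Submodule.mem_span_singleton.mp h1
  have h1' : f (b 1) = z • b 1 + t • b 0 := by rw [ht]; abel
  have e00 : LinearMap.toMatrix b b f 0 0 = x := by
    rw [LinearMap.toMatrix_apply, h0, map_smul, b.repr_self]
    simp
  have e10 : LinearMap.toMatrix b b f 1 0 = 0 := by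
    rw [LinearMap.toMatrix_apply, h0, map_smul, b.repr_self]
    simp
  have e11 : LinearMap.toMatrix b b f 1 1 = z := by
    rw [LinearMap.toMatrix_apply, h1', map_add, map_smul, map_smul, b.repr_self, b.repr_self]
    simp
  rw [e00, e10, e11, mul_zero, sub_zero]

/-- A trace-zero matrix sending `v ≠ 0` to a prescribed vector. -/
theorem exists_trace_zero_mulVec_eq {v : Fin 2 → k} (hv : v ≠ 0) (w : Fin 2 → k) :
    ∃ X : Mat2 k, X.trace = 0 ∧ X.mulVec v = w := by
  by_cases hv0 : v 0 = 0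
  · have hv1 : v 1 ≠ 0 := by
      intro hv1
      apply hv
      funext i
      fin_cases i
      · exact hv0
      · exact hv1
    refine ⟨!![-(w 1) / v 1, w 0 / v 1; 0, w 1 / v 1], ?_, ?_⟩
    · rw [Matrix.trace_fin_two]
      simp
      ring
    · funext i
      fin_cases i
      · simp [Matrix.mulVec, dotProduct, Fin.sum_univ_two, hv0]
        field_simp
      · simp [Matrix.mulVec, dotProduct, Fin.sum_univ_two, hv0]
        field_simp
  · refine ⟨!![w 0 / v 0, 0; (w 1 + w 0 / v 0 * v 1) / v 0, -(w 0 / v 0)], ?_, ?_⟩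
    · rw [Matrix.trace_fin_two]
      simp
    · funext i
      fin_cases i
      · simp [Matrix.mulVec, dotProduct, Fin.sum_univ_two]
        field_simp
      · simp [Matrix.mulVec, dotProduct, Fin.sum_univ_two]
        field_simp
        ring

/-- The first-order computation: if `b₀ = v + ε w` spans a line on which the lift
`(1 + ε c) rb` acts through a constant `x₀`, then `c + ∂X` kills `v` for any `X` with `X v = w`. -/
theorem mulVec_add_cob_eq_zero (rb : GQ →* Mat2 k) (σ : GQ) (cσ X : Mat2 k) {v : Fin 2 → k}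
    (w : Fin 2 → k) (hv : v ≠ 0) (x0 : k) (h1 : (rb σ).mulVec v = x0 • v)
    (h2 : (rb σ).mulVec w + (cσ * rb σ).mulVec v = x0 • w) (hX : X.mulVec v = w) :
    (cσ + cob rb 1 X σ).mulVec v = 0 := by
  have hx0 := eigen_ne_zero rb σ hv x0 h1
  rw [← Matrix.mulVec_mulVec, h1, Matrix.mulVec_smul] at h2
  have h3 : cσ.mulVec v = w - x0⁻¹ • (rb σ).mulVec w := by
    have h4 : x0 • cσ.mulVec v = x0 • w - (rb σ).mulVec w := by rw [← h2]; abel
    calc cσ.mulVec v = x0⁻¹ • (x0 • cσ.mulVec v) := by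
          rw [smul_smul, inv_mul_cancel₀ hx0, one_smul]
      _ = w - x0⁻¹ • (rb σ).mulVec w := by
          rw [h4, smul_sub, smul_smul, inv_mul_cancel₀ hx0, one_smul]
  rw [Matrix.add_mulVec, cob_apply, adAct_apply, one_hom_apply_coe, one_smul, Matrix.sub_mulVec,
    ← Matrix.mulVec_mulVec, ← Matrix.mulVec_mulVec, rb_inv_mulVec rb σ x0 hx0 h1,
    Matrix.mulVec_smul, hX, Matrix.mulVec_smul, h3]
  abel

theorem natCast_dualNumber_eq_zero {p : ℕ} (hp : (p : k) = 0) :
    ((p ^ 1 : ℕ) : DualNumber k) = 0 := by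
  rw [pow_one]
  refine TrivSqZeroExt.ext ?_ ?_
  · rw [TrivSqZeroExt.fst_natCast, hp, TrivSqZeroExt.fst_zero]
  · rw [TrivSqZeroExt.snd_natCast, TrivSqZeroExt.snd_zero]

/-- The cocycle of a first-order lift with cyclotomic determinant is a (trace-zero, continuous)
cocycle. -/
theorem mem_Z1_of_lift (rb : GQ →* Mat2 k) (p : ℕ) [Fact p.Prime] (hp : (p : k) = 0)
    (c : GQ → Mat2 k) (r : GQ →* Mat2 (DualNumber k)) (hr : MatCont r)
    (hrc : ∀ σ, r σ = liftMat rb c σ) (hdet : (repOfMat r hr).DetIsCyclotomic p) :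
    c ∈ Z1 rb 1 := by
  have hfst : ∀ σ, fstM (r σ) = rb σ := fun σ => by rw [hrc, fstM_liftMat]
  have htan : ∀ σ, tanCocycle r σ = c σ := by
    intro σ
    unfold tanCocycle
    rw [hfst, hrc, sndM_liftMat, mul_assoc, rb_mul_rb_inv, mul_one]
  refine ⟨fun σ => ?_, fun σ τ => ?_, ?_⟩
  · rw [← htan]
    apply trace_tanCocycle_eq_zero
    obtain ⟨a, ha⟩ := exists_cyclo_exponent p σ
    have h1 := hdet.2 1 σ a (by simpa using ha)
    rw [natCast_dualNumber_eq_zero hp, Ideal.span_singleton_eq_bot.mpr rfl, Ideal.mem_bot,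
      sub_eq_zero] at h1
    have h2 : LinearMap.det ((repOfMat r hr).ρ σ) = (r σ).det := LinearMap.det_toLin' (r σ)
    rw [← h2, h1, TrivSqZeroExt.snd_natCast]
  · have h1 := tanCocycle_mul r σ τ
    rw [htan, htan, htan, hfst, hfst] at h1
    rw [h1, adAct_apply, one_hom_apply_coe, one_smul]
  · obtain ⟨L, hL, -, h2⟩ := exists_tanCocycle_levelConstant r hr
    refine ⟨L, hL, fun g s hs => ?_⟩
    rw [← htan, ← htan, h2 g s hs]

theorem inr_smul_eq_zero_of_fstV_eq_zero (B : Fin 2 → DualNumber k) (h : fstV B = 0) :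
    (TrivSqZeroExt.inr (1 : k) : DualNumber k) • B = 0 := by
  funext i
  have hi : (B i).fst = 0 := congrFun h i
  refine TrivSqZeroExt.ext ?_ ?_
  · simp
  · simp [hi]

theorem fst_snd_of_mulVec_eq_smul (M : Mat2 (DualNumber k)) (B : Fin 2 → DualNumber k)
    (x : DualNumber k) (h : M.mulVec B = x • B) :
    (fstM M).mulVec (fstV B) = x.fst • fstV B ∧
      (fstM M).mulVec (sndV B) + (sndM M).mulVec (fstV B) = x.fst • sndV B + x.snd • fstV B := by
  constructor
  · have h1 := congrArg fstV h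
    rwa [fstV_mulVec, fstV_smul] at h1
  · have h1 := congrArg sndV h
    rwa [sndV_mulVec, sndV_smul] at h1

theorem fst_of_smul_eq_sub (M : Mat2 (DualNumber k)) (B : Fin 2 → DualNumber k) (u : Fin 2 → k)
    (t : DualNumber k)
    (h : t • B = M.mulVec (fun i => (TrivSqZeroExt.inl (u i) : DualNumber k)) -
      (fun i => (TrivSqZeroExt.inl (u i) : DualNumber k))) :
    (fstM M).mulVec u - u = t.fst • fstV B := by
  have h1 := congrArg fstV h
  rw [fstV_smul] at h1
  rw [h1]
  have h2 : fstV (M.mulVec (fun i => (TrivSqZeroExt.inl (u i) : DualNumber k))) =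
      (fstM M).mulVec u := by
    rw [fstV_mulVec]
    rfl
  rw [← h2]
  funext i
  simp [fstV]

/-- From a strict-ordinary first-order lift: an admissible line `k·v` and a trace-zero `X` such
that `c + ∂X` kills `v` on the decomposition group. -/
theorem exists_line_of_strictOrdinary (rb : GQ →* Mat2 k) (p : ℕ) [Fact p.Prime] (hp2 : p ≠ 2)
    (h : ResidualHyp rb p) (P : ValuationSubring (AlgebraicClosure ℚ)) (hP : P.LiesOverPrime p)
    (c : GQ → Mat2 k) (r : GQ →* Mat2 (DualNumber k)) (hr : MatCont r)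
    (hrc : ∀ σ, r σ = liftMat rb c σ) (hdet : (repOfMat r hr).DetIsCyclotomic p)
    (hso : (repOfMat r hr).IsStrictOrdinaryAt p) :
    ∃ (v : Fin 2 → k) (X : Mat2 k), Adm rb P v ∧ X.trace = 0 ∧
      ∀ σ ∈ P.decompositionSubgroup ℚ, (c σ + cob rb 1 X σ).mulVec v = 0 := by
  have h2k : (2 : k) ≠ 0 := ResHyp.two_ne_zero_of_natCast_eq_zero p hp2 h.charP
  have hp0 := natCast_dualNumber_eq_zero (k := k) h.charP
  have hfst : ∀ σ, fstM (r σ) = rb σ := fun σ => by rw [hrc, fstM_liftMat]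
  have hsnd : ∀ σ, sndM (r σ) = c σ * rb σ := fun σ => by rw [hrc, sndM_liftMat]
  obtain ⟨L, ⟨b, hLb⟩, -, hI, hx⟩ := hso.2 P hP
  have hBL : b 0 ∈ L := by rw [hLb]; exact Submodule.mem_span_singleton_self _
  have hv : fstV (b 0) ≠ 0 := by
    intro hv0
    have h1 : (TrivSqZeroExt.inr (1 : k) : DualNumber k) • b 0 = 0 :=
      inr_smul_eq_zero_of_fstV_eq_zero (b 0) hv0
    have h2 := congrArg (fun y => b.repr y 0) h1
    simp only [map_smul, b.repr_self, map_zero, Finsupp.smul_apply, Finsupp.single_eq_same,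
      Finsupp.zero_apply, smul_eq_mul, mul_one] at h2
    have h3 := congrArg TrivSqZeroExt.snd h2
    simp at h3
  obtain ⟨X, hXtr, hXv⟩ := exists_trace_zero_mulVec_eq hv (sndV (b 0))
  -- the decomposition group
  have key : ∀ σ ∈ P.decompositionSubgroup ℚ, ∃ x0 : k,
      (rb σ).mulVec (fstV (b 0)) = x0 • fstV (b 0) ∧
      x0 * x0 = (rb σ).det * (rb σ).det ∧
      (rb σ).mulVec (sndV (b 0)) + (c σ * rb σ).mulVec (fstV (b 0)) = x0 • sndV (b 0) := by
    intro σ hσ
    obtain ⟨x, z, hx1, hx2, hx3⟩ := hx σ hσ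
    obtain ⟨a, ha⟩ := exists_cyclo_exponent p σ
    have hxz : x = (a : DualNumber k) * z := by
      have h1 := hx3 1 a (by simpa using ha)
      rw [hp0, Ideal.span_singleton_eq_bot.mpr rfl, Ideal.mem_bot, sub_eq_zero] at h1
      exact h1
    have hdet1 : LinearMap.det ((repOfMat r hr).ρ σ) = (a : DualNumber k) := by
      have h1 := hdet.2 1 σ a (by simpa using ha)
      rw [hp0, Ideal.span_singleton_eq_bot.mpr rfl, Ideal.mem_bot, sub_eq_zero] at h1
      exact h1
    obtain ⟨hB1, hB2⟩ := fst_snd_of_mulVec_eq_smul (r σ) (b 0) x (hx1 (b 0) hBL)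
    have hdet2 : LinearMap.det ((repOfMat r hr).ρ σ) = x * z := by
      refine det_eq_mul_of_triangular b _ x z (hx1 (b 0) hBL) ?_
      have h1 := hx2 (b 1)
      rw [hLb] at h1
      exact h1
    have hdeta : (rb σ).det = (a : k) := h.detCyc σ a ha
    have ha0 : (a : k) ≠ 0 := by rw [← hdeta]; exact det_rb_ne_zero rb σ
    have e : (a : DualNumber k) * z * z = a := by rw [← hxz, ← hdet2, hdet1]
    have e1 : (a : k) * z.fst * z.fst = a := by
      have := congrArg TrivSqZeroExt.fst e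
      simpa using this
    have e2 : (a : k) * z.fst * z.snd + (a : k) * z.snd * z.fst = 0 := by
      have := congrArg TrivSqZeroExt.snd e
      simpa using this
    have hz1 : z.fst * z.fst = 1 := by
      have : (a : k) * (z.fst * z.fst - 1) = 0 := by linear_combination e1
      have := (mul_eq_zero.mp this).resolve_left ha0
      linear_combination this
    have hz0 : z.fst ≠ 0 := by
      intro h0
      rw [h0, mul_zero] at hz1
      exact zero_ne_one hz1
    have hz2 : z.snd = 0 := by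
      have h3 : (2 * (a : k) * z.fst) * z.snd = 0 := by linear_combination e2
      exact (mul_eq_zero.mp h3).resolve_left (mul_ne_zero (mul_ne_zero h2k ha0) hz0)
    have hxf : x.fst = (a : k) * z.fst := by
      have := congrArg TrivSqZeroExt.fst hxz
      simpa using this
    have hxs : x.snd = 0 := by
      have := congrArg TrivSqZeroExt.snd hxz
      simpa [hz2] using this
    refine ⟨x.fst, ?_, ?_, ?_⟩
    · rw [hfst] at hB1
      exact hB1
    · rw [hxf, hdeta]
      linear_combination (a : k) * (a : k) * hz1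
    · rw [hfst, hsnd, hxs, zero_smul, add_zero] at hB2
      exact hB2
  refine ⟨fstV (b 0), X, ⟨hv, fun σ hσ => ?_, fun σ hσ u => ?_⟩, hXtr, fun σ hσ => ?_⟩
  · obtain ⟨x0, h1, h2, -⟩ := key σ hσ
    exact ⟨x0, h1, h2⟩
  · have h1 := hI σ hσ (fun i => TrivSqZeroExt.inl (u i))
    rw [hLb] at h1
    obtain ⟨t, ht⟩ := Submodule.mem_span_singleton.mp h1
    refine ⟨t.fst, ?_⟩
    have h2 := fst_of_smul_eq_sub (r σ) (b 0) u t ht
    rw [hfst] at h2
    exact h2
  · obtain ⟨x0, h1, -, h3⟩ := key σ hσ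
    exact mulVec_add_cob_eq_zero rb σ (c σ) X (sndV (b 0)) hv x0 h1 h3 hXv

/-- **TW-SO, modulo the two arithmetic inputs** (`hI`: inertia at `p` does not act through
`det = 1`; `hK`: the Kummer count of `det`-twisted scalar cocycles on the decomposition group). -/
theorem exists_locFamily_so_of [Finite k] (rb : GQ →* Mat2 k) (p : ℕ) [Fact p.Prime]
    (hp2 : p ≠ 2) (h : ResidualHyp rb p)
    (hI : ∀ P : ValuationSubring (AlgebraicClosure ℚ), P.LiesOverPrime p →
      ∃ σ ∈ P.inertiaSubgroupIn ℚ, (rb σ).det ≠ 1)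
    (hK : ∀ P : ValuationSubring (AlgebraicClosure ℚ), P.LiesOverPrime p →
      (Zdet (P.decompositionSubgroup ℚ) rb).Finite ∧
        Nat.card (Zdet (P.decompositionSubgroup ℚ) rb) ≤ Nat.card k ^ 3) :
    ∃ Lp : LocFamily k,
      (∀ P : ValuationSubring (AlgebraicClosure ℚ), P.LiesOverPrime p → LocBound rb P 1 (Lp P)) ∧
      ∀ (P : ValuationSubring (AlgebraicClosure ℚ)), P.LiesOverPrime p →
      ∀ (c : GQ → Mat2 k) (r : GQ →* Mat2 (DualNumber k)) (hr : MatCont r),
        (∀ σ, r σ = liftMat rb c σ) →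
        (repOfMat r hr).DetIsCyclotomic p → (repOfMat r hr).IsStrictOrdinaryAt p →
          resOn (P.decompositionSubgroup ℚ) c ∈ Lp P := by
  classical
  have hrb : FiniteLevel rb := h.finiteLevel'
  refine ⟨LpSO rb, fun P hP => ?_, fun P hP c r hr hrc hdet hso => ?_⟩
  · by_cases hex : ∃ v, Adm rb P v
    · have e : LpSO rb P = Lso (P.decompositionSubgroup ℚ) rb hex.choose := by
        unfold LpSO
        rw [dif_pos hex]
      rw [e]
      exact locBound_Lso P hrb hex.choose_spec.1 hex.choose_spec.2.1 (hK P hP).1 (hK P hP).2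
    · have e : LpSO rb P = B1On (P.decompositionSubgroup ℚ) rb 1 := by
        unfold LpSO
        rw [dif_neg hex]
      rw [e]
      exact locBound_B1On P hrb
  · obtain ⟨v₁, X, hadm, hXtr, hkill⟩ :=
      exists_line_of_strictOrdinary rb p hp2 h P hP c r hr hrc hdet hso
    have hex : ∃ v, Adm rb P v := ⟨v₁, hadm⟩
    have e : LpSO rb P = Lso (P.decompositionSubgroup ℚ) rb hex.choose := by
      unfold LpSO
      rw [dif_pos hex]
    rw [e]
    obtain ⟨t, ht⟩ := adm_unique rb P (hI P hP) hex.choose_spec hadm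
    have ht0 : t ≠ 0 := by
      intro h0
      rw [h0, zero_smul] at ht
      exact hadm.1 ht
    have hcZ : c ∈ Z1 rb 1 := mem_Z1_of_lift rb p h.charP c r hr hrc hdet
    have hT : resOn (P.decompositionSubgroup ℚ) c + cobOn (P.decompositionSubgroup ℚ) rb ⟨X, hXtr⟩ ∈
        Tso (P.decompositionSubgroup ℚ) rb hex.choose := by
      refine ⟨add_mem (resOn_mem_Z1On _ hcZ) (cobOn_mem_Z1On _ hrb _), fun σ => ?_⟩
      have h1 := hkill σ σ.2
      rw [ht, Matrix.mulVec_smul] at h1
      have h2 := (smul_eq_zero.mp h1).resolve_left ht0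
      exact h2
    have hB : cobOn (P.decompositionSubgroup ℚ) rb ⟨X, hXtr⟩ ∈
        B1On (P.decompositionSubgroup ℚ) rb 1 := by
      rw [← range_cobOn]
      exact LinearMap.mem_range_self _ _
    have hsum : resOn (P.decompositionSubgroup ℚ) c =
        (resOn (P.decompositionSubgroup ℚ) c + cobOn (P.decompositionSubgroup ℚ) rb ⟨X, hXtr⟩) -
          cobOn (P.decompositionSubgroup ℚ) rb ⟨X, hXtr⟩ := by abel
    rw [hsum]
    exact sub_mem (Submodule.mem_sup_right hT) (Submodule.mem_sup_left hB)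

/-! ### The two arithmetic inputs -/

/-- Inertia at `p` does not act through `det = 1` (TW-SO-D and `det = ω`). -/
theorem exists_inertia_det_ne_one (rb : GQ →* Mat2 k) (p : ℕ) [Fact p.Prime] (hp2 : p ≠ 2)
    (h : ResidualHyp rb p) (P : ValuationSubring (AlgebraicClosure ℚ)) (hP : P.LiesOverPrime p) :
    ∃ σ ∈ P.inertiaSubgroupIn ℚ, (rb σ).det ≠ 1 := by
  have hp : p.Prime := Fact.out
  have : NeZero (p : ℚ) := ⟨by exact_mod_cast hp.ne_zero⟩
  obtain ⟨ζ, hζ⟩ := HasEnoughRootsOfUnity.exists_primitiveRoot (AlgebraicClosure ℚ) p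
  obtain ⟨σ, hσ, hne⟩ := Fermat.Agent.TW.KummerP.exists_mem_inertia_apply_ne p hp2 P hP hζ
  refine ⟨σ, hσ, fun hdet => hne ?_⟩
  obtain ⟨a, ha⟩ := exists_cyclo_exponent p σ
  have h1 : (a : k) = ((1 : ℕ) : k) := by rw [← h.detCyc σ a ha, hdet, Nat.cast_one]
  have hchar : CharP k p := (CharP.charP_iff_prime_eq_zero hp).mpr h.charP
  have h2 : a % p = 1 % p := (CharP.natCast_eq_natCast k p).mp h1
  rw [ha ζ hζ.pow_eq_one, pow_eq_pow_mod a hζ.pow_eq_one, h2, ← pow_eq_pow_mod 1 hζ.pow_eq_one,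
    pow_one]

/-- The Kummer count for `det rb`-twisted scalar cocycles with values in `k`: at most `#k³`. -/
theorem zdet_finite_card_le [Finite k] (rb : GQ →* Mat2 k) (p : ℕ) [Fact p.Prime] (hp2 : p ≠ 2)
    (h : ResidualHyp rb p) (P : ValuationSubring (AlgebraicClosure ℚ)) (hP : P.LiesOverPrime p) :
    (Zdet (P.decompositionSubgroup ℚ) rb).Finite ∧
      Nat.card (Zdet (P.decompositionSubgroup ℚ) rb) ≤ Nat.card k ^ 3 := by
  classical
  have hp : p.Prime := Fact.out
  have : NeZero p := ⟨hp.ne_zero⟩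
  have : NeZero (p : ℚ) := ⟨by exact_mod_cast hp.ne_zero⟩
  obtain ⟨ζ, hζ⟩ := HasEnoughRootsOfUnity.exists_primitiveRoot (AlgebraicClosure ℚ) p
  choose a ha using exists_cyclo_exponent p
  obtain ⟨ω, hω⟩ : ∃ ω : GQ → ZMod p, ∀ σ, ω σ = (a σ : ZMod p) := ⟨fun σ => (a σ : ZMod p),
    fun σ => rfl⟩
  have hωζ : ∀ σ : GQ, σ ζ = ζ ^ (ω σ).val := fun σ => by
    rw [hω, KummerCount.pow_val_natCast hζ.pow_eq_one, ha σ ζ hζ.pow_eq_one]
  obtain ⟨hfin, hcard⟩ := KummerCount.zcyc_finite_card_le hp2 P hP hζ ω hωζ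
  have hchar : CharP k p := (CharP.charP_iff_prime_eq_zero hp).mpr h.charP
  let alg : Algebra (ZMod p) k := ZMod.algebra k p
  have hdet : ∀ σ : GQ, (rb σ).det = algebraMap (ZMod p) k (ω σ) := fun σ => by
    rw [h.detCyc σ (a σ) (ha σ), hω, map_natCast]
  let bs := Module.finBasis (ZMod p) k
  have hmem : ∀ (f : Zdet (P.decompositionSubgroup ℚ) rb) (i : Fin (Module.finrank (ZMod p) k)),
      (fun σ : P.decompositionSubgroup ℚ =>
        bs.repr ((f : ↥(P.decompositionSubgroup ℚ) → k) σ) i) ∈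
        KummerCount.Zcyc (P.decompositionSubgroup ℚ) ω := by
    intro f i
    obtain ⟨⟨F, hF, hlev⟩, hcoc⟩ := f.2
    refine ⟨⟨F, hF, fun σ s hs => ?_⟩, fun σ τ => ?_⟩
    · show bs.repr ((f : ↥(P.decompositionSubgroup ℚ) → k) (σ * s)) i =
        bs.repr ((f : ↥(P.decompositionSubgroup ℚ) → k) σ) i
      rw [hlev σ s hs]
    · show bs.repr ((f : ↥(P.decompositionSubgroup ℚ) → k) (σ * τ)) i =
        bs.repr ((f : ↥(P.decompositionSubgroup ℚ) → k) σ) i +
          ω σ * bs.repr ((f : ↥(P.decompositionSubgroup ℚ) → k) τ) i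
      rw [hcoc σ τ, hdet, ← Algebra.smul_def, map_add, map_smul, Finsupp.add_apply,
        Finsupp.smul_apply, smul_eq_mul]
  let Φ : Zdet (P.decompositionSubgroup ℚ) rb →
      (Fin (Module.finrank (ZMod p) k) → KummerCount.Zcyc (P.decompositionSubgroup ℚ) ω) :=
    fun f i => ⟨_, hmem f i⟩
  have hΦ : Function.Injective Φ := by
    intro f f' hff
    apply Subtype.ext
    funext σ
    apply bs.repr.injective
    ext i
    exact congrArg (fun z : Fin (Module.finrank (ZMod p) k) →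
      KummerCount.Zcyc (P.decompositionSubgroup ℚ) ω =>
        (z i : ↥(P.decompositionSubgroup ℚ) → ZMod p) σ) hff
  have : Finite (KummerCount.Zcyc (P.decompositionSubgroup ℚ) ω) := hfin
  have hfinZ : Finite (Zdet (P.decompositionSubgroup ℚ) rb) := Finite.of_injective Φ hΦ
  refine ⟨Set.toFinite _, ?_⟩
  calc Nat.card (Zdet (P.decompositionSubgroup ℚ) rb)
      ≤ Nat.card (Fin (Module.finrank (ZMod p) k) →
          KummerCount.Zcyc (P.decompositionSubgroup ℚ) ω) := Nat.card_le_card_of_injective Φ hΦ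
    _ = Nat.card (KummerCount.Zcyc (P.decompositionSubgroup ℚ) ω) ^
          Module.finrank (ZMod p) k := by rw [Nat.card_fun, Nat.card_fin]
    _ ≤ (p ^ 3) ^ Module.finrank (ZMod p) k := Nat.pow_le_pow_left hcard _
    _ = Nat.card k ^ 3 := by
        rw [Module.natCard_eq_pow_finrank (K := ZMod p) (V := k), Nat.card_zmod]
        ring

end

end Fermat.Agent.TW.StrictOrd

namespace Fermat.Agent.TW

open Fermat.Agent.S53

variable {k : Type} [Field k]

/-- **TW-SO: the strict-ordinary local condition at `p`.**  A family of local conditions at the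
places over `p` satisfying the local bound with `δ = 1` and containing the restrictions of the
cocycles of all strict-ordinary first-order lifts with cyclotomic determinant. -/
theorem exists_locFamily_so [Finite k] (rb : GQ →* Mat2 k) (p : ℕ) [Fact p.Prime] (hp2 : p ≠ 2)
    (h : ResidualHyp rb p) :
    ∃ Lp : LocFamily k,
      (∀ P : ValuationSubring (AlgebraicClosure ℚ), P.LiesOverPrime p → LocBound rb P 1 (Lp P)) ∧
      ∀ (P : ValuationSubring (AlgebraicClosure ℚ)), P.LiesOverPrime p →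
      ∀ (c : GQ → Mat2 k) (r : GQ →* Mat2 (DualNumber k)) (hr : MatCont r),
        (∀ σ, r σ = liftMat rb c σ) →
        (repOfMat r hr).DetIsCyclotomic p → (repOfMat r hr).IsStrictOrdinaryAt p →
          resOn (P.decompositionSubgroup ℚ) c ∈ Lp P :=
  StrictOrd.exists_locFamily_so_of rb p hp2 h
    (fun P hP => StrictOrd.exists_inertia_det_ne_one rb p hp2 h P hP)
    (fun P hP => StrictOrd.zdet_finite_card_le rb p hp2 h P hP)

end Fermat.Agent.TW
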