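/-
TW (S56): the local bound B2 for the unramified condition at a prime `q` (task 260, TW-LOC):
`locBound_unr : LocBound rb P 0 (unrLoc rb 1 P)`.
-/
import Mathlib
import Fermat.Agent.TW.Local.AwayCore
import Fermat.Agent.TW.Local.FrobGen

set_option autoImplicit false

namespace Fermat.Agent.TW

open Fermat.Agent.S53 IsLocalRing Polynomial

variable {k : Type} [Field k]

/-- **B2.** The unramified local condition at a place `P` over a prime `q` satisfies
`#L ≤ #H⁰(D_P, ad⁰) · #B¹(D_P, ad⁰)`. -/
theorem locBound_unr [Finite k] (rb : GQ →* Mat2 k) (p : ℕ) [Fact p.Prime]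
    (h : ResidualHyp rb p) (q : ℕ) (hq : q.Prime) (P : ValuationSubring (AlgebraicClosure ℚ))
    (hP : P.LiesOverPrime q) : LocBound rb P 0 (unrLoc rb 1 P) := by
  obtain ⟨φ, hφ⟩ := Fermat.Agent.Lib.FrobeniusExists.exists_isFrobeniusAt_of_liesOverPrime hq P hP
  exact Away.locBound_unr_of h.finiteLevel' P φ hφ.mem_decompositionSubgroup
    (Away.procyclicAt_of_isFrobeniusAt hq P hP φ hφ)

end Fermat.Agent.TW
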