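/-
TW (S56): local bounds away from `p` (task 260, TW-LOC).

* `locBound_twPrime` (B1) : at a Taylor–Wiles prime `q` (unramified, distinct Frobenius
  eigenvalues, `q ≡ 1 mod p`) the full cocycle space satisfies
  `#Z¹(D_P, ad⁰) ≤ #H⁰(D_P, ad⁰) · #k · #B¹(D_P, ad⁰)`.
* `locBound_unr` (B2, `TW/Local/AwayUnr.lean`), `unrLoc`, `card_H0On_complexConjugation` (B4,
  `TW/Local/AwayCore.lean`) are re-exported through the imports.
-/
import Mathlib
import Fermat.Agent.TW.Defs
import Fermat.Agent.TW.Selmer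
import Fermat.Agent.TW.Hyp
import Fermat.Agent.TW.Local.AwayCore
import Fermat.Agent.TW.Local.FrobGen
import Fermat.Agent.TW.Local.AwayUnr
import Fermat.Agent.Lib.Tame
import Fermat.Prelude.Def_GaloisRep_ComplexConjugation

set_option autoImplicit false

namespace Fermat.Agent.TW

open Fermat.Agent.S53 IsLocalRing Polynomial

variable {k : Type} [Field k]

/-- **B1.** At a Taylor–Wiles prime `q ≠ p` where `rb` is unramified, the space of all cocycles
of the decomposition group satisfies the local bound with `δ = 1`. -/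
theorem locBound_twPrime [Finite k] (rb : GQ →* Mat2 k) (p : ℕ) [Fact p.Prime] (hp2 : p ≠ 2)
    (h : ResidualHyp rb p) (q : ℕ) (S : Finset ℕ) (hq : IsTWPrime rb p 0 S q) (hqp : q ≠ p)
    (P : ValuationSubring (AlgebraicClosure ℚ)) (hP : P.LiesOverPrime q)
    (hunr : ∀ σ ∈ P.inertiaSubgroupIn ℚ, rb σ = 1) :
    LocBound rb P 1 (Z1On (P.decompositionSubgroup ℚ) rb 1) := by
  obtain ⟨hqprime, -, hdvd, hfrob⟩ := hq
  obtain ⟨φ, hφ⟩ :=
    Fermat.Agent.Lib.FrobeniusExists.exists_isFrobeniusAt_of_liesOverPrime hqprime P hP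
  have hdvd' : p ∣ q - 1 := by simpa using hdvd
  exact Away.locBound_twPrime_of h.finiteLevel' (Away.two_ne_zero_of_charP p hp2 h.charP) P φ
    hφ.mem_decompositionSubgroup (Away.procyclicAt_of_isFrobeniusAt hqprime P hP φ hφ)
    (hfrob P hP φ hφ) hunr
    (fun f hf hfc τ hτ => Fermat.Agent.Lib.Tame.tame_conj_invariant p q hqprime hdvd' h.charP
      P hP f hf hfc φ hφ.mem_decompositionSubgroup τ hτ)
    (fun f g hf hfc hg hgc hg0 => Fermat.Agent.Lib.Tame.tame_proportional p q hqprime hqp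
      h.charP P hP f g hf hfc hg hgc hg0)

end Fermat.Agent.TW
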